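import Fermat.Agent.ModLift.WPoint.Tate
import Fermat.Agent.FlatLocal.Lattice

/-!
# At a good `p` the layers of the Tate module are flat

The functions are generated by the coordinates of the translates by a point `R` of prime order
prime to `p`, fixed by inertia: every such translate is integral with unit differences of
abscissae, so the chord formulas express the coordinates of sums in the generated algebra.
-/

set_option autoImplicit false
set_option linter.style.haveILetI false
set_option linter.unusedSectionVars false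

noncomputable section

open scoped Classical WeierstrassCurve.Affine Pointwise
open WeierstrassCurve WeierstrassCurve.Affine IsLocalRing Matrix

namespace FLTAgent.ModLift

local notation "LL" => AlgebraicClosure ℚ
local notation "GG" => (AlgebraicClosure ℚ ≃ₐ[ℚ] AlgebraicClosure ℚ)

open FLTAgent.LocalEC FLTAgent.FrobTrace FLTAgent.LevelMatch
open FLTAgent.FlatLocal (Rnr mem_Rnr tens IsIne Dec)

variable {A : ValuationSubring (AlgebraicClosure ℚ)}

section Functions

variable {α : Type} [Finite α]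

/-- Values in the ring of integers, permuted by inertia. -/
def StableVals (A : ValuationSubring LL) (f : α → LL) : Prop :=
  (∀ a, f a ∈ A) ∧ ∀ σ : Dec A, IsIne A σ → ∀ a, ∃ b, f b = (σ : GG) (f a)

/-- Such a function is integral over the inertia integers, with constant term the product of its
values up to sign. -/
theorem exists_poly {f : α → LL} (hf : StableVals A f) :
    ∃ g : Polynomial (Rnr A), g.Monic ∧ Polynomial.aeval f g = 0 ∧
      ((∀ a, A.valuation (f a) = 1) → A.valuation ((g.coeff 0 : Rnr A) : LL) = 1) := by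
  cases nonempty_fintype α
  set V : Finset LL := Finset.univ.image f
  set h : Polynomial LL := ∏ c ∈ V, (Polynomial.X - Polynomial.C c)
  have hV : ∀ c ∈ V, c ∈ A := by
    simp only [V, Finset.forall_mem_image]; exact fun a _ => hf.1 a
  have hA : ∀ i, h.coeff i ∈ A := by
    have hl : h ∈ Polynomial.lifts A.subtype :=
      prod_mem fun c hc => by
        refine (Polynomial.lifts_iff_coeff_lifts _).mpr fun i => ?_
        have hc' : (Polynomial.X - Polynomial.C c).coeff i ∈ A := by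
          rw [Polynomial.coeff_sub, Polynomial.coeff_X, Polynomial.coeff_C]
          refine sub_mem ?_ ?_ <;> split_ifs
          exacts [A.one_mem, A.zero_mem, hV c hc, A.zero_mem]
        exact ⟨⟨_, hc'⟩, rfl⟩
    intro i
    obtain ⟨b, hb⟩ := (Polynomial.lifts_iff_coeff_lifts h).mp hl i
    exact hb ▸ b.2
  have hfix : ∀ σ : Dec A, IsIne A σ → h.map ((σ : GG) : LL →+* LL) = h := by
    intro σ hσ
    rw [Polynomial.map_prod]
    simp only [Polynomial.map_sub, Polynomial.map_X, Polynomial.map_C]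
    refine Finset.prod_bij (fun c _ => (σ : GG) c) (fun c hc => ?_)
      (fun a _ b _ e => (σ : GG).injective e) (fun c hc => ?_) fun c _ => rfl
    · simp only [V, Finset.mem_image, Finset.mem_univ, true_and] at hc ⊢
      obtain ⟨a, rfl⟩ := hc
      exact hf.2 σ hσ a
    · have himg : V.image (σ : GG) = V := by
        refine Finset.eq_of_subset_of_card_le ?_
          (Finset.card_image_of_injective V (σ : GG).injective).ge
        simp only [Finset.subset_iff, Finset.forall_mem_image, V]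
        intro a _
        obtain ⟨b, hb⟩ := hf.2 σ hσ a
        exact Finset.mem_image.mpr ⟨b, Finset.mem_univ _, hb⟩
      rw [← himg, Finset.mem_image] at hc
      obtain ⟨a, ha, e⟩ := hc
      exact ⟨a, ha, e⟩
  have hmem : h ∈ Polynomial.lifts (Rnr A).subtype := (Polynomial.lifts_iff_coeff_lifts h).mpr
    fun i => ⟨⟨h.coeff i, mem_Rnr.2 ⟨hA i, fun σ hσ => by
      conv_rhs => rw [← hfix σ hσ, Polynomial.coeff_map]
      rfl⟩⟩, rfl⟩
  obtain ⟨g, hgmap, -, hgmon⟩ := Polynomial.lifts_and_natDegree_eq_and_monic hmem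
    (Polynomial.monic_prod_of_monic _ _ fun c _ => Polynomial.monic_X_sub_C c)
  refine ⟨g, hgmon, funext fun a => ?_, fun hu => ?_⟩
  · have e : Polynomial.aeval f g a = h.eval (f a) := by
      rw [← hgmap, Polynomial.eval_map]
      exact (Polynomial.aeval_algHom_apply (Pi.evalAlgHom (Rnr A) (fun _ : α => LL) a) f g).symm
    rw [e, Polynomial.eval_prod]
    exact Finset.prod_eq_zero (Finset.mem_image_of_mem f (Finset.mem_univ a)) (by simp)
  · have e : ((g.coeff 0 : Rnr A) : LL) = h.coeff 0 := by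
      rw [← hgmap, Polynomial.coeff_map]; rfl
    rw [e, Polynomial.coeff_zero_prod, map_prod]
    refine Finset.prod_eq_one fun c hc => ?_
    simp only [V, Finset.mem_image, Finset.mem_univ, true_and] at hc
    obtain ⟨a, rfl⟩ := hc
    simp [hu a]

/-- Functions with unit values are invertible in every algebra of such functions. -/
theorem inv_mem (M : Subalgebra (Rnr A) (α → LL)) {f : α → LL} (hfM : f ∈ M)
    (hf : StableVals A f) (hu : ∀ a, A.valuation (f a) = 1) : (fun a => (f a)⁻¹) ∈ M := by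
  obtain ⟨g, -, hg0, hgv⟩ := exists_poly hf
  have hc := hgv hu
  have hc0 : ((g.coeff 0 : Rnr A) : LL) ≠ 0 := fun h => by
    rw [h, map_zero] at hc; exact zero_ne_one hc
  set u : Rnr A := ⟨(((g.coeff 0 : Rnr A) : LL))⁻¹, mem_Rnr.2 ⟨mem_of_val_le_one (by
    rw [map_inv₀, hc, inv_one]), fun σ hσ => by
      rw [map_inv₀, (mem_Rnr.1 (g.coeff 0).2).2 σ hσ]⟩⟩
  have key : (fun a => (f a)⁻¹) = -(u • Polynomial.aeval f g.divX) := by
    funext a
    have h1 : f a * (Polynomial.aeval f g.divX) a + ((g.coeff 0 : Rnr A) : LL) = 0 := by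
      have h2 := congrFun hg0 a
      rw [← Polynomial.X_mul_divX_add g, map_add, map_mul, Polynomial.aeval_X,
        Polynomial.aeval_C] at h2
      exact h2
    have hfa : f a ≠ 0 := fun h => by have := hu a; rw [h, map_zero] at this; exact zero_ne_one this
    rw [Pi.neg_apply, Pi.smul_apply, FlatLocal.Rnr_smul_def]
    refine inv_eq_of_mul_eq_one_right ?_
    show f a * -((u : LL) * (Polynomial.aeval f g.divX) a) = 1
    rw [show (u : LL) = ((g.coeff 0 : Rnr A) : LL)⁻¹ from rfl]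
    field_simp
    linear_combination -h1
  rw [key]
  refine M.neg_mem (M.smul_mem ?_ u)
  exact Polynomial.aeval_mem_adjoin_singleton (Rnr A) f |> fun h =>
    Algebra.adjoin_le (Set.singleton_subset_iff.mpr hfM) h

end Functions

variable {W : WeierstrassCurve ℤ}

/-- The abscissa, zero at infinity. -/
def coordX : (barCurve W).Point → LL
  | .zero => 0
  | .some x _ _ => x

/-- The ordinate, zero at infinity. -/
def coordY : (barCurve W).Point → LL
  | .zero => 0
  | .some _ y _ => y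

theorem coord_smul (σ : GG) (P : (barCurve W).Point) :
    coordX (σ • P) = σ (coordX P) ∧ coordY (σ • P) = σ (coordY P) := by
  rcases P with _ | ⟨x, y, h⟩
  · exact ⟨(map_zero σ).symm, (map_zero σ).symm⟩
  obtain ⟨h', e⟩ := smul_bar_some σ h
  rw [e]
  exact ⟨rfl, rfl⟩

theorem coord_mem {P : (barCurve W).Point} (h : ¬ InE1 A P) :
    coordX P ∈ A ∧ coordY P ∈ A := by
  rcases P with _ | ⟨x, y, hxy⟩
  · exact absurd trivial h
  have hx : x ∈ A := by by_contra hc; exact h hc
  exact ⟨hx, (intCoeff_barCurve W A).y_mem hxy.1 hx⟩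

/-- Away from `± Q` modulo the kernel of reduction, the abscissae differ by a unit. -/
theorem val_coordX_sub (hΔA : A.valuation (barCurve W).Δ = 1) {P Q : (barCurve W).Point}
    (hP : ¬ InE1 A P) (hQ : ¬ InE1 A Q) (hsub : ¬ InE1 A (P - Q)) (hadd : ¬ InE1 A (P + Q)) :
    A.valuation (coordX P - coordX Q) = 1 := by
  rcases P with _ | ⟨x₁, y₁, h₁⟩
  · exact absurd trivial hP
  rcases Q with _ | ⟨x₂, y₂, h₂⟩
  · exact absurd trivial hQ
  set hW := intCoeff_barCurve W A
  have hx₁ : x₁ ∈ A := by by_contra hc; exact hP hc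
  have hx₂ : x₂ ∈ A := by by_contra hc; exact hQ hc
  refine le_antisymm (val_le_one (sub_mem hx₁ hx₂)) (not_lt.mp fun hlt => ?_)
  have hy₁ := hW.y_mem h₁.1 hx₁
  have hy₂ := hW.y_mem h₂.1 hx₂
  have hex : residue A ⟨x₁, hx₁⟩ = residue A ⟨x₂, hx₂⟩ :=
    (residue_eq_iff_val_sub_lt_one ⟨x₁, hx₁⟩ ⟨x₂, hx₂⟩).mpr hlt
  obtain ⟨_, _, hn₁⟩ := (inE0_of_val_disc hW hΔA (Point.some x₁ y₁ h₁)).resolve_left
    fun h => h hx₁
  obtain ⟨_, _, hn₂⟩ := (inE0_of_val_disc hW hΔA (Point.some x₂ y₂ h₂)).resolve_left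
    fun h => h hx₂
  rcases (Point.X_eq_iff (h₁ := hn₁) (h₂ := hn₂)).mp hex with e | e
  · refine hsub (sub_inE1_of_red_eq hW (inE0_of_val_disc hW hΔA _)
      (inE0_of_val_disc hW hΔA _) ?_)
    rw [red_some hW hx₁ hy₁ hn₁, red_some hW hx₂ hy₂ hn₂, e]
  · refine hadd ?_
    rw [← sub_neg_eq_add]
    refine sub_inE1_of_red_eq hW (inE0_of_val_disc hW hΔA _)
      (inE0_neg hW (inE0_of_val_disc hW hΔA _)) ?_
    rw [red_neg hW _ (inE0_of_val_disc hW hΔA _), red_some hW hx₁ hy₁ hn₁,
      red_some hW hx₂ hy₂ hn₂, e]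

section Chord

variable {α : Type} [Finite α]

/-- Families of affine points with coordinates in an algebra. -/
def HasCoords (M : Subalgebra (Rnr A) (α → LL)) (G : α → (barCurve W).Point) : Prop :=
  (∀ a, G a ≠ 0) ∧ (fun a => coordX (G a)) ∈ M ∧ (fun a => coordY (G a)) ∈ M

theorem HasCoords.add {M : Subalgebra (Rnr A) (α → LL)} (hM : ∀ f ∈ M, StableVals A f)
    {G H : α → (barCurve W).Point} (hG : HasCoords M G) (hH : HasCoords M H)
    (hd : ∀ a, A.valuation (coordX (G a) - coordX (H a)) = 1) :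
    HasCoords M fun a => G a + H a := by
  set x₁ := fun a => coordX (G a)
  set y₁ := fun a => coordY (G a)
  set x₂ := fun a => coordX (H a)
  set y₂ := fun a => coordY (H a)
  have hx : ∀ a, x₁ a ≠ x₂ a := fun a e => by
    have := hd a
    simp only [x₁, x₂] at e
    rw [e, sub_self, map_zero] at this
    exact zero_ne_one this
  have hsub := sub_mem hG.2.1 hH.2.1
  set l := fun a => (y₁ a - y₂ a) * (x₁ a - x₂ a)⁻¹
  have hl : l ∈ M := M.mul_mem (sub_mem hG.2.2 hH.2.2) (inv_mem M hsub (hM _ hsub) hd)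
  have hint : ∀ z : ℤ, (fun _ : α => (z : LL)) ∈ M := fun z => by
    have := M.algebraMap_mem ((z : Rnr A))
    rw [map_intCast] at this
    exact this
  have hV : (barCurve W).a₁ = (W.a₁ : LL) ∧ (barCurve W).a₂ = (W.a₂ : LL) ∧ (barCurve W).a₃ = (W.a₃ : LL) := by
    simp [barCurve, WeierstrassCurve.map]
  have hX : (fun a => (barCurve W).addX (x₁ a) (x₂ a) (l a)) ∈ M := by
    have := sub_mem (sub_mem (sub_mem (M.add_mem (M.mul_mem hl hl) (M.mul_mem (hint W.a₁) hl))
      (hint W.a₂)) hG.2.1) hH.2.1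
    convert this using 1
    funext a
    simp only [addX, hV.1, hV.2.1, x₁, x₂, Pi.sub_apply, Pi.add_apply, Pi.mul_apply]
    ring
  have hY : (fun a => (barCurve W).addY (x₁ a) (x₂ a) (y₁ a) (l a)) ∈ M := by
    have := sub_mem (sub_mem (M.neg_mem (M.add_mem (M.mul_mem hl (sub_mem hX hG.2.1)) hG.2.2))
      (M.mul_mem (hint W.a₁) hX)) (hint W.a₃)
    convert this using 1
    funext a
    simp only [addY, negAddY, negY, hV.1, hV.2.2, x₁, y₁, Pi.sub_apply, Pi.add_apply, Pi.mul_apply,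
      Pi.neg_apply]
  have key : ∀ a, ∃ h, G a + H a = Point.some ((barCurve W).addX (x₁ a) (x₂ a) (l a))
      ((barCurve W).addY (x₁ a) (x₂ a) (y₁ a) (l a)) h := by
    intro a
    have hgen : ∀ P Q : (barCurve W).Point, P ≠ 0 → Q ≠ 0 → coordX P ≠ coordX Q →
        ∃ h, P + Q = Point.some ((barCurve W).addX (coordX P) (coordX Q)
            ((coordY P - coordY Q) * (coordX P - coordX Q)⁻¹))
          ((barCurve W).addY (coordX P) (coordX Q) (coordY P)
            ((coordY P - coordY Q) * (coordX P - coordX Q)⁻¹)) h := by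
      rintro (_ | ⟨a₁, b₁, k₁⟩) (_ | ⟨a₂, b₂, k₂⟩) hP hQ hne
      · exact absurd rfl hP
      · exact absurd rfl hP
      · exact absurd rfl hQ
      replace hne : a₁ ≠ a₂ := hne
      have e := Point.add_of_X_ne (h₁ := k₁) (h₂ := k₂) hne
      simp only [coordX, coordY, ← div_eq_mul_inv]
      refine ⟨?_, e.trans ?_⟩
      · rw [← slope_of_X_ne hne]
        exact nonsingular_add k₁ k₂ fun h => hne h.1
      · rw [Point.some.injEq, slope_of_X_ne hne]
        exact ⟨rfl, rfl⟩
    exact hgen _ _ (hG.1 a) (hH.1 a) (hx a)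
  refine ⟨fun a => ?_, ?_, ?_⟩
  · obtain ⟨h, e⟩ := key a
    intro h0
    exact Point.some_ne_zero h (e.symm.trans h0)
  · convert hX using 1
    funext a; obtain ⟨h, e⟩ := key a; exact (congrArg coordX e).trans rfl
  · convert hY using 1
    funext a; obtain ⟨h, e⟩ := key a; exact (congrArg coordY e).trans rfl

end Chord

/-- **The layers are flat.** -/
theorem flat_tate {p : ℕ} [hp : Fact p.Prime] (B : TateBasis (barCurve W).Point p) (hΔ : W.Δ ≠ 0)
    (hgood : W.IsGoodPrimeFor p) (hA : A.LiesOverPrime p) (n : ℕ) :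
    FlatLocal.FlatI A fun σ : FlatLocal.Dec A =>
      (((B.tateRep (σ : GG)).map (PadicInt.toZModPow (p := p) n)).mulVecLin) := by
  haveI : NeZero (p ^ n) := ⟨pow_ne_zero _ hp.out.ne_zero⟩
  let Wn := Fin 2 → ZMod (p ^ n)
  haveI : Finite Wn := Pi.finite
  let act : Dec A → (Wn →ₗ[ZMod (p ^ n)] Wn) := fun σ =>
    ((B.tateRep (σ : GG)).map (PadicInt.toZModPow (p := p) n)).mulVecLin
  show FlatLocal.FlatI A act
  let ι : Wn →+ (barCurve W).Point :=
    (ZMod.lift (p ^ n) ⟨zmultiplesHom _ (B.P n), by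
        rw [zmultiplesHom_apply, natCast_zsmul, B.killP]⟩).comp
      (Pi.evalAddMonoidHom (fun _ : Fin 2 => ZMod (p ^ n)) 0) +
    (ZMod.lift (p ^ n) ⟨zmultiplesHom _ (B.Q n), by
        rw [zmultiplesHom_apply, natCast_zsmul, B.killQ]⟩).comp
      (Pi.evalAddMonoidHom (fun _ : Fin 2 => ZMod (p ^ n)) 1)
  have hιpt : ∀ u : Fin 2 → ℤ_[p], ι (fun i => PadicInt.toZModPow n (u i)) = B.pt n u := fun u =>
    rfl
  have hlift : ∀ w : Wn, ∃ u : Fin 2 → ℤ_[p], (fun i => PadicInt.toZModPow n (u i)) = w := fun w =>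
    ⟨fun i => ((w i).val : ℤ_[p]), funext fun i => by rw [map_natCast, ZMod.natCast_zmod_val]⟩
  have hιinj : Function.Injective ι := (injective_iff_map_eq_zero ι).mpr fun w hw => by
    obtain ⟨u, rfl⟩ := hlift w
    rw [hιpt, B.pt_eq_zero_iff] at hw
    exact funext fun i => TateBasis.natPow_dvd_iff.mp (hw i)
  have hιact : ∀ (σ : Dec A) (w : Wn), ι (act σ w) = (σ : GG) • ι w := by
    intro σ w
    obtain ⟨u, rfl⟩ := hlift w
    rw [hιpt, B.smul_pt, ← hιpt]
    congr 1
    funext i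
    exact (RingHom.map_mulVec (PadicInt.toZModPow (p := p) n) (B.tateRep (σ : GG)) u i).symm
  have hιtor : ∀ w, p ^ n • ι w = 0 := fun w => by
    obtain ⟨u, rfl⟩ := hlift w
    rw [hιpt, B.nsmul_pt]
  -- the auxiliary point
  obtain ⟨ℓ, hℓle, hℓ⟩ := Nat.exists_infinite_primes (p + 11)
  have hℓp : ¬ ℓ ∣ p := fun h => by
    have := Nat.le_of_dvd hp.out.pos h; omega
  obtain ⟨R, hR0, hℓR⟩ : ∃ R : (barCurve W).Point, R ≠ 0 ∧ ℓ • R = 0 := by
    by_contra hc
    push Not at hc
    have hs : Subsingleton {T : (barCurve W).Point // ℓ • T = 0} := ⟨fun a b => by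
      have key : ∀ T : {T : (barCurve W).Point // ℓ • T = 0}, (T : (barCurve W).Point) = 0 :=
        fun T => by by_contra h; exact hc T h T.2
      exact Subtype.ext ((key a).trans (key b).symm)⟩
    have hcard := card_bar_torsion hΔ hℓ.ne_zero
    have : Nat.card {T : (barCurve W).Point // ℓ • T = 0} ≤ 1 := Finite.card_le_one_iff_subsingleton.mpr hs
    rw [hcard] at this
    have := Nat.le_self_pow two_ne_zero ℓ
    omega
  have hΔA : A.valuation (barCurve W).Δ = 1 := by
    rw [Δ_barCurve]; exact val_intCast_eq_one hA hp.out hgood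
  have hW := intCoeff_barCurve W A
  have hvℓ : A.valuation (ℓ : LL) = 1 := val_natCast_eq_one hA hp.out fun h => by
    have := (Nat.prime_dvd_prime_iff_eq hp.out hℓ).mp h; omega
  have hRfix : ∀ σ : Dec A, IsIne A σ → (σ : GG) • R = R := fun σ hσ =>
    inertia_smul_of_inE0 hσ hvℓ hℓR (inE0_of_val_disc hW hΔA R)
  have hout : ∀ (w : Wn) (c : ℤ), ¬ (ℓ : ℤ) ∣ c → ¬ InE1 A (ι w + c • R) := by
    intro w c hc h
    have h1 : InE1 A (p ^ n • (ι w + c • R)) :=
      (mem_e1Subgroup (hW := hW)).mp (nsmul_mem ((mem_e1Subgroup (hW := hW)).mpr h) _)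
    rw [nsmul_add, hιtor, zero_add] at h1
    have h2 := eq_zero_of_inE1_of_nsmul hW h1 hvℓ (k := ℓ) (by
      rw [smul_comm ℓ, smul_comm ℓ, hℓR, zsmul_zero, nsmul_zero])
    rw [← natCast_zsmul, smul_smul] at h2
    have hco : IsCoprime (ℓ : ℤ) (((p ^ n : ℕ) : ℤ) * c) := by
      refine (Nat.prime_iff_prime_int.mp hℓ).coprime_iff_not_dvd.mpr fun hd => ?_
      rcases (Nat.prime_iff_prime_int.mp hℓ).dvd_or_dvd hd with hd | hd
      · exact hℓp (hℓ.dvd_of_dvd_pow (Int.natCast_dvd_natCast.mp hd))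
      · exact hc hd
    obtain ⟨a, b, hab⟩ := hco
    refine hR0 ?_
    rw [← one_zsmul R, ← hab, add_zsmul, mul_zsmul, mul_zsmul, h2, natCast_zsmul, hℓR, zsmul_zero,
      zsmul_zero, add_zero]
  -- the generated algebra
  let T : ℤ → Wn → (barCurve W).Point := fun k w => ι w + k • R
  let gens : Set (Wn → LL) := {fun w => coordX (T 1 w), fun w => coordY (T 1 w),
    fun w => coordX (T 3 w), fun w => coordY (T 3 w)}
  let S : Subalgebra (Rnr A) (Wn → LL) := Algebra.adjoin (Rnr A) gens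
  let good : Subalgebra (Rnr A) (Wn → LL) :=
    { carrier := {f | (∀ w, f w ∈ A) ∧
        ∀ σ : Dec A, IsIne A σ → ∀ w, f (act σ w) = (σ : GG) (f w)}
      mul_mem' := fun {f g} hf hg => ⟨fun w => A.mul_mem _ _ (hf.1 w) (hg.1 w),
        fun σ hσ w => by simp [hf.2 σ hσ w, hg.2 σ hσ w]⟩
      add_mem' := fun {f g} hf hg => ⟨fun w => A.add_mem _ _ (hf.1 w) (hg.1 w),
        fun σ hσ w => by simp [hf.2 σ hσ w, hg.2 σ hσ w]⟩
      algebraMap_mem' := fun c => ⟨fun w => (mem_Rnr.1 c.2).1,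
        fun σ hσ w => ((mem_Rnr.1 c.2).2 σ hσ).symm⟩ }
  have hTact : ∀ (k : ℤ) (σ : Dec A), IsIne A σ → ∀ w, T k (act σ w) = (σ : GG) • T k w := by
    intro k σ hσ w
    show ι (act σ w) + k • R =
      DistribSMul.toAddMonoidHom (barCurve W).Point (σ : GG) (ι w + k • R)
    rw [map_add, map_zsmul, hιact]
    show _ = (σ : GG) • ι w + k • ((σ : GG) • R)
    rw [hRfix σ hσ]
  have hgood1 : ∀ k : ℤ, ¬ (ℓ : ℤ) ∣ k →
      (fun w => coordX (T k w)) ∈ good ∧ (fun w => coordY (T k w)) ∈ good := fun k hk =>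
    ⟨⟨fun w => (coord_mem (hout w k hk)).1,
      fun σ hσ w => (congrArg coordX (hTact k σ hσ w)).trans (coord_smul _ _).1⟩,
     ⟨fun w => (coord_mem (hout w k hk)).2,
      fun σ hσ w => (congrArg coordY (hTact k σ hσ w)).trans (coord_smul _ _).2⟩⟩
  have hsmallnd : ∀ k : ℤ, k ≠ 0 → k.natAbs ≤ 10 → ¬ (ℓ : ℤ) ∣ k := fun k hk hk' hd => by
    have := Nat.le_of_dvd (Int.natAbs_pos.mpr hk) (Int.natCast_dvd.mp hd)
    omega
  have h1 := hsmallnd 1 (by norm_num) (by norm_num)
  have h3 := hsmallnd 3 (by norm_num) (by norm_num)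
  have hSgood : S ≤ good := Algebra.adjoin_le (by
    simp only [gens, Set.insert_subset_iff, Set.singleton_subset_iff]
    exact ⟨(hgood1 1 h1).1, (hgood1 1 h1).2, (hgood1 3 h3).1, (hgood1 3 h3).2⟩)
  have hsurj : ∀ σ : Dec A, Function.Injective (act σ) := fun σ a b e =>
    hιinj (smul_left_cancel (σ : GG) (by rw [← hιact, ← hιact, e]))
  have hSstable : ∀ f ∈ S, StableVals A f := fun f hf =>
    ⟨(hSgood hf).1, fun σ hσ a => ⟨_, (hSgood hf).2 σ hσ a⟩⟩
  have hfin : S.toSubmodule.FG := by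
    refine fg_adjoin_of_finite (by simp [gens]) fun f hf => ?_
    obtain ⟨g, hg, hg0, -⟩ := exists_poly (hSstable f (Algebra.subset_adjoin hf))
    exact ⟨g, hg, hg0⟩
  obtain ⟨F, hF⟩ := hfin
  -- separation
  have hfull : Submodule.span LL (S : Set (Wn → LL)) = ⊤ := by
    cases nonempty_fintype Wn
    let Q : Subalgebra LL (Wn → LL) := Algebra.adjoin LL (S : Set (Wn → LL))
    have hQ : Q.toSubmodule = Submodule.span LL (S : Set (Wn → LL)) := by
      rw [Algebra.adjoin_eq_span, show Submonoid.closure (S : Set (Wn → LL)) = S.toSubmonoid from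
        Submonoid.closure_eq S.toSubmonoid]
      rfl
    rw [← hQ, eq_top_iff]
    intro f _
    have hsep : ∀ v w : Wn, v ≠ w → ∃ g ∈ Q, g v ≠ g w := by
      intro v w hvw
      by_contra hc
      push Not at hc
      have ex := hc _ (Algebra.subset_adjoin (show (fun w => coordX (T 1 w)) ∈ S from
        Algebra.subset_adjoin (by simp [gens])))
      have ey := hc _ (Algebra.subset_adjoin (show (fun w => coordY (T 1 w)) ∈ S from
        Algebra.subset_adjoin (by simp [gens])))
      refine hvw (hιinj (add_right_cancel (b := (1 : ℤ) • R) ?_))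
      have o1 := hout v 1 h1
      have o2 := hout w 1 h1
      simp only [T] at ex ey
      rcases hv : ι v + (1 : ℤ) • R with _ | ⟨a, b, k⟩
      · rw [hv] at o1; exact absurd trivial o1
      rcases hw : ι w + (1 : ℤ) • R with _ | ⟨a', b', k'⟩
      · rw [hw] at o2; exact absurd trivial o2
      rw [hv, hw] at ex ey
      rw [Point.some.injEq]
      exact ⟨ex, ey⟩
    have hsingle : ∀ v : Wn, (Pi.single v 1 : Wn → LL) ∈ Q := by
      intro v
      choose g hgQ hg using hsep v
      have e : (Pi.single v 1 : Wn → LL) = ∏ w ∈ (Finset.univ.erase v).attach,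
          (g w.1 (Finset.ne_of_mem_erase w.2).symm v - g w.1 (Finset.ne_of_mem_erase w.2).symm w.1)⁻¹ •
            (g w.1 (Finset.ne_of_mem_erase w.2).symm -
              algebraMap LL (Wn → LL) (g w.1 (Finset.ne_of_mem_erase w.2).symm w.1)) := by
        funext a
        rw [Finset.prod_apply]
        rcases eq_or_ne a v with rfl | ha
        · rw [Pi.single_eq_same]
          refine (Finset.prod_eq_one fun w _ => ?_).symm
          simp only [Pi.smul_apply, Pi.sub_apply, Pi.algebraMap_apply, smul_eq_mul,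
            Algebra.algebraMap_self, RingHom.id_apply]
          exact inv_mul_cancel₀ (sub_ne_zero.mpr (hg _ _))
        · rw [Pi.single_eq_of_ne ha]
          refine (Finset.prod_eq_zero (Finset.mem_attach _ ⟨a, Finset.mem_erase.mpr
            ⟨ha, Finset.mem_univ _⟩⟩) ?_).symm
          simp
      rw [e]
      exact prod_mem fun w _ => Q.smul_mem (sub_mem (hgQ _ _) (Q.algebraMap_mem _)) _
    have e : f = ∑ v, f v • (Pi.single v 1 : Wn → LL) := by
      funext a; rw [Finset.sum_apply, Finset.sum_eq_single a] <;> simp +contextual [eq_comm]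
    rw [e]
    exact sum_mem fun v _ => Q.smul_mem (hsingle v) _
  -- translations
  have hF' : Submodule.span (Rnr A) (F : Set (Wn → LL)) = S.toSubmodule := hF
  let M2 : Subalgebra (Rnr A) (Wn × Wn → LL) :=
    (Submodule.span (Rnr A) (Set.image2 tens (S : Set (Wn → LL)) S)).toSubalgebra
      (Submodule.subset_span ⟨1, one_mem S, 1, one_mem S, funext fun x => one_mul 1⟩)
      (fun a b ha hb => by
        have h := Submodule.mul_mem_mul ha hb
        rw [Submodule.span_mul_span] at h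
        refine Submodule.span_mono ?_ h
        rintro _ ⟨_, ⟨a, ha, b, hb, rfl⟩, _, ⟨c, hc, d, hd, rfl⟩, rfl⟩
        exact ⟨a * c, S.mul_mem ha hc, b * d, S.mul_mem hb hd,
          funext fun x => mul_mul_mul_comm _ _ _ _⟩)
  let pact : Dec A → Wn × Wn → Wn × Wn := fun σ x => (act σ x.1, act σ x.2)
  have hM2 : ∀ f ∈ M2, StableVals A f := by
    intro f hf
    have key : (∀ x, f x ∈ A) ∧ ∀ σ : Dec A, IsIne A σ → ∀ x, f (pact σ x) = (σ : GG) (f x) := by
      induction hf using Submodule.span_induction with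
      | mem f hf =>
        obtain ⟨a, ha, b, hb, rfl⟩ := hf
        exact ⟨fun x => A.mul_mem _ _ ((hSgood ha).1 _) ((hSgood hb).1 _), fun σ hσ x => by
          simp only [tens, pact, map_mul, (hSgood ha).2 σ hσ, (hSgood hb).2 σ hσ]⟩
      | zero => exact ⟨fun x => A.zero_mem, fun σ hσ x => by simp⟩
      | add f g _ _ hf hg => exact ⟨fun x => A.add_mem _ _ (hf.1 x) (hg.1 x),
          fun σ hσ x => by simp [hf.2 σ hσ x, hg.2 σ hσ x]⟩
      | smul c f _ hf => exact ⟨fun x => A.mul_mem _ _ (mem_Rnr.1 c.2).1 (hf.1 x),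
          fun σ hσ x => by simp [FlatLocal.Rnr_smul_def, hf.2 σ hσ x, (mem_Rnr.1 c.2).2 σ hσ]⟩
    exact ⟨key.1, fun σ hσ x => ⟨_, key.2 σ hσ x⟩⟩
  have hfst : ∀ f ∈ S, (fun x : Wn × Wn => f x.1) ∈ M2 := fun f hf =>
    Submodule.subset_span ⟨f, hf, 1, one_mem S, funext fun x => mul_one _⟩
  have hsnd : ∀ f ∈ S, (fun x : Wn × Wn => f x.2) ∈ M2 := fun f hf =>
    Submodule.subset_span ⟨1, one_mem S, f, hf, funext fun x => one_mul _⟩
  have hne : ∀ (k : ℤ), ¬ (ℓ : ℤ) ∣ k → ∀ w, T k w ≠ 0 := fun k hk w h => by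
    refine hout w k hk ?_
    show InE1 A (T k w)
    rw [h]; trivial
  have hbase : ∀ k : ℤ, ¬ (ℓ : ℤ) ∣ k → ∀ (g : Wn × Wn → Wn),
      (fun x => coordX (T k (g x))) ∈ M2 → (fun x => coordY (T k (g x))) ∈ M2 →
      HasCoords M2 fun x => T k (g x) := fun k hk g a b => ⟨fun x => hne k hk _, a, b⟩
  have hchord : ∀ (g g' : Wn × Wn → Wn) (a b : ℤ), ¬ (ℓ : ℤ) ∣ a → ¬ (ℓ : ℤ) ∣ b →
      ¬ (ℓ : ℤ) ∣ a - b → ¬ (ℓ : ℤ) ∣ a + b → HasCoords M2 (fun x => T a (g x)) →
      HasCoords M2 (fun x => T b (g' x)) → HasCoords M2 fun x => T (a + b) (g x + g' x) := by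
    intro g g' a b ha hb hab hab' hG hH
    have e : (fun x => T a (g x) + T b (g' x)) = fun x => T (a + b) (g x + g' x) := by
      funext x; simp only [T, map_add, add_zsmul]; abel
    rw [← e]
    refine hG.add hM2 hH fun x => val_coordX_sub hΔA (hout _ a ha) (hout _ b hb) ?_ ?_
    · have := hout (g x - g' x) (a - b) hab
      simp only [T]
      rw [map_sub, sub_zsmul] at this
      convert this using 2; abel
    · have := hout (g x + g' x) (a + b) hab'
      simp only [T]
      rwa [map_add, add_zsmul, show ι (g x) + ι (g' x) + (a • R + b • R) =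
        ι (g x) + a • R + (ι (g' x) + b • R) by abel] at this
  have hconst : ∀ k : ℤ, ¬ (ℓ : ℤ) ∣ k → HasCoords M2 fun _ : Wn × Wn => T k 0 := by
    intro k hk
    have hc : ∀ c : LL, c ∈ A → (∀ σ : Dec A, IsIne A σ → (σ : GG) c = c) →
        (fun _ : Wn × Wn => c) ∈ M2 := fun c hcA hcf =>
      M2.algebraMap_mem ⟨c, mem_Rnr.2 ⟨hcA, hcf⟩⟩
    have hfix : ∀ σ : Dec A, IsIne A σ → (σ : GG) • T k 0 = T k 0 := fun σ hσ => by
      rw [← hTact k σ hσ, map_zero]
    exact hbase k hk (fun _ => 0)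
      (hc _ (coord_mem (hout 0 k hk)).1 fun σ hσ => by rw [← (coord_smul _ _).1, hfix σ hσ])
      (hc _ (coord_mem (hout 0 k hk)).2 fun σ hσ => by rw [← (coord_smul _ _).2, hfix σ hσ])
  have hmem1 : (fun w => coordX (T 1 w)) ∈ S ∧ (fun w => coordY (T 1 w)) ∈ S :=
    ⟨Algebra.subset_adjoin (by simp [gens]), Algebra.subset_adjoin (by simp [gens])⟩
  have hmem3 : (fun w => coordX (T 3 w)) ∈ S ∧ (fun w => coordY (T 3 w)) ∈ S :=
    ⟨Algebra.subset_adjoin (by simp [gens]), Algebra.subset_adjoin (by simp [gens])⟩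
  have nd : ∀ k : ℤ, k ≠ 0 → k.natAbs ≤ 10 → ¬ (ℓ : ℤ) ∣ k := hsmallnd
  have hP1 := hbase 1 h1 Prod.fst (hfst _ hmem1.1) (hfst _ hmem1.2)
  have hQ1 := hbase 1 h1 Prod.snd (hsnd _ hmem1.1) (hsnd _ hmem1.2)
  have hQ3 := hbase 3 h3 Prod.snd (hsnd _ hmem3.1) (hsnd _ hmem3.2)
  have hS4 := hchord Prod.fst Prod.snd 1 3 h1 h3 (nd _ (by norm_num) (by norm_num))
    (nd _ (by norm_num) (by norm_num)) hP1 hQ3
  have hS1 := hchord (fun x => x.1 + x.2) (fun _ => 0) 4 (-3) (nd _ (by norm_num) (by norm_num))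
    (nd _ (by norm_num) (by norm_num)) (nd _ (by norm_num) (by norm_num))
    (nd _ (by norm_num) (by norm_num)) (by simpa using hS4) (hconst (-3)
      (nd _ (by norm_num) (by norm_num)))
  have hS3 := hchord (fun x => x.1 + x.2) (fun _ => 0) 1 2 h1 (nd _ (by norm_num) (by norm_num))
    (nd _ (by norm_num) (by norm_num)) (nd _ (by norm_num) (by norm_num))
    (by simpa using hS1) (hconst 2 (nd _ (by norm_num) (by norm_num)))
  simp only [add_zero] at hS1 hS3
  norm_num at hS1 hS3
  let addL : (Wn → LL) →ₐ[Rnr A] (Wn × Wn → LL) :=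
    AlgHom.pi fun x : Wn × Wn => Pi.evalAlgHom (Rnr A) (fun _ : Wn => LL) (x.1 + x.2)
  have htr : S ≤ M2.comap addL := Algebra.adjoin_le (by
    simp only [gens, Set.insert_subset_iff, Set.singleton_subset_iff]
    exact ⟨hS1.2.1, hS1.2.2, hS3.2.1, hS3.2.2⟩)
  refine ⟨F, ?_, ?_, ?_, ?_, ?_, ?_, ?_⟩
  · exact fun σ _ => hsurj σ
  · exact fun f hf => (hSgood (show f ∈ S.toSubmodule from hF' ▸ Submodule.subset_span hf)).1
  · exact fun f hf σ hσ w =>
      (hSgood (show f ∈ S.toSubmodule from hF' ▸ Submodule.subset_span hf)).2 σ hσ w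
  · rw [eq_top_iff, ← hfull]
    refine Submodule.span_le.2 fun f hf => Submodule.span_le_restrictScalars (Rnr A) LL _ ?_
    show f ∈ Submodule.span (Rnr A) (F : Set (Wn → LL))
    rw [hF']
    exact hf
  · rw [hF']; exact one_mem S
  · intro f hf g hg
    rw [hF']
    exact S.mul_mem (show f ∈ S.toSubmodule from hF' ▸ Submodule.subset_span hf)
      (show g ∈ S.toSubmodule from hF' ▸ Submodule.subset_span hg)
  · intro f hf
    have h := htr (show f ∈ S.toSubmodule from hF' ▸ Submodule.subset_span hf)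
    refine Submodule.span_le.2 ?_ h
    rintro _ ⟨a, ha, b, hb, rfl⟩
    exact FlatLocal.tens_mem_span (hF'.symm ▸ ha) (hF'.symm ▸ hb)

end FLTAgent.ModLift
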