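import Fermat.Agent.ModLift.Interface
import Fermat.Agent.FlatLocal.Lattice
import Fermat.Agent.DetCyclo.Basic
import Fermat.Prelude.Def_CuspForm_HeckeAlgebra

/-!
# The point of the curve: interface

`CurvePoint` is the Tate module of the curve in a basis, with its local properties.
-/

set_option autoImplicit false

noncomputable section

namespace FLTAgent.ModLift

local notation "LL" => AlgebraicClosure ℚ
local notation "GG" => (AlgebraicClosure ℚ ≃ₐ[ℚ] AlgebraicClosure ℚ)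
local notation "M2" => Matrix (Fin 2) (Fin 2)

/-- The representation on the Tate module. -/
structure CurvePoint (W : WeierstrassCurve ℤ) (hΔ : W.Δ ≠ 0) (p : ℕ) [Fact p.Prime] where
  r : GG →* GL (Fin 2) ℤ_[p]
  b : Module.Basis (Fin 2) (ZMod p) (LevelMatch.resW W hΔ p).V
  residual : ∀ σ, (r σ : M2 ℤ_[p]).map PadicInt.toZMod =
    LinearMap.toMatrix b b ((LevelMatch.resW W hΔ p).ρ σ)
  continuous : ∀ n : ℕ, ∃ L : IntermediateField ℚ LL, FiniteDimensional ℚ L ∧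
    ∀ σ : GG, (∀ x ∈ L, σ x = x) → ∀ i j, (r σ : M2 ℤ_[p]) i j - (1 : M2 ℤ_[p]) i j ∈
      Ideal.span {(p : ℤ_[p]) ^ n}
  det_cyclotomic : ∀ (n : ℕ) (σ : GG) (c : ℕ), DetCyclo.CycloExponent p n σ c →
    Matrix.det (r σ : M2 ℤ_[p]) - (c : ℤ_[p]) ∈ Ideal.span {(p : ℤ_[p]) ^ n}
  unramified : ∀ q : ℕ, q.Prime → q ≠ p → W.IsGoodPrimeFor q →
    ∀ V : ValuationSubring LL, V.LiesOverPrime q → ∀ σ ∈ V.inertiaSubgroupIn ℚ, r σ = 1
  trace_frob : ∀ q : ℕ, q.Prime → q ≠ p → W.IsGoodPrimeFor q →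
    ∀ V : ValuationSubring LL, V.LiesOverPrime q → ∀ φ : GG, V.IsFrobeniusAt φ q →
      Matrix.trace (r φ : M2 ℤ_[p]) = (W.apOfModel q : ℤ_[p])
  /-- At a bad prime different from `p`: unipotent non-trivial inertia, and Frobenius acts on the
  fixed line by `ε q`. -/
  multiplicative : ∀ q : ℕ, q.Prime → q ≠ p → (q : ℤ) ∣ W.Δ →
    ∃ ε : ℤ_[p], ε ^ 2 = 1 ∧ ∀ V : ValuationSubring LL, V.LiesOverPrime q →
      (∀ σ ∈ V.inertiaSubgroupIn ℚ,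
        Matrix.trace (r σ : M2 ℤ_[p]) = 2 ∧ ((r σ : M2 ℤ_[p]) - 1) ^ 2 = 0) ∧
      (∃ σ ∈ V.inertiaSubgroupIn ℚ, r σ ≠ 1) ∧
      ∀ φ : GG, V.IsFrobeniusAt φ q → Matrix.trace (r φ : M2 ℤ_[p]) = ε * ((q : ℤ_[p]) + 1)
  /-- At a good `p`: the finite layers are flat. -/
  flat : W.IsGoodPrimeFor p → ∀ V : ValuationSubring LL, V.LiesOverPrime p → ∀ n : ℕ,
    FlatLocal.FlatI V fun σ : FlatLocal.Dec V =>
      (((r (σ : GG) : M2 ℤ_[p]).map (PadicInt.toZModPow (p := p) n)).mulVecLin)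
  /-- At a multiplicative `p`: ordinary, the unit root being a sign. -/
  ordinary : (p : ℤ) ∣ W.Δ → ∃ ε : ℤ_[p], ε ^ 2 = 1 ∧
    ∀ V : ValuationSubring LL, V.LiesOverPrime p →
      (∀ σ ∈ V.inertiaSubgroupIn ℚ, ∀ τ ∈ V.inertiaSubgroupIn ℚ,
        ((r σ : M2 ℤ_[p]) - Matrix.det (r σ : M2 ℤ_[p]) • 1) * ((r τ : M2 ℤ_[p]) - 1) = 0) ∧
      ∀ φ : GG, V.IsFrobeniusAt φ p → ∀ σ ∈ V.inertiaSubgroupIn ℚ,
        ((r σ : M2 ℤ_[p]) - Matrix.det (r σ : M2 ℤ_[p]) • 1) *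
          ((r φ : M2 ℤ_[p]) - ε • 1) = 0

/-- The point exists. -/
def TargetCurvePoint : Prop :=
  ∀ (p : ℕ) [Fact p.Prime], p ≠ 2 → ∀ (W : WeierstrassCurve ℤ) (hΔ : W.Δ ≠ 0),
    W.IsSemistableModel → Nonempty (CurvePoint W hΔ p)

/-- A character of the Hecke algebra with the values of the curve gives modularity. -/
def TargetModularOfChar : Prop :=
  ∀ (W : WeierstrassCurve ℤ), W.Δ ≠ 0 → ∀ (N : ℕ) [NeZero N] (bad : Finset ℕ),
    (∀ l : ℕ, l.Prime → l ∣ N → l ∈ bad) →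
    ∀ (Ω : Type) [Field Ω] [CharZero Ω] (θ : CuspForm.heckeAlgebra N 2 (↑bad : Set ℕ) →+* Ω),
      (∀ (l : ℕ) (hl : l.Prime) (hlN : ¬ l ∣ N) (hlb : l ∉ (↑bad : Set ℕ)),
        W.IsGoodPrimeFor l → θ (CuspForm.heckeAlgebra.T hl hlN hlb) = (W.apOfModel l : Ω)) →
      W.IsModularModelOfLevel N

end FLTAgent.ModLift
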