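import Fermat.Agent.LevelMatch.Unipotent
import Fermat.Agent.MazurPrinciple.FreyNode
import Fermat.Agent.Mazur.Value

/-!
# Torsion of prime power order at a node

Away from the residue characteristic the torsion is not all fixed by inertia (the components are
bounded, the smooth part has few points); at the residue characteristic some point of order `p`
has singular reduction; inertia at an odd prime moves a point inside its component.
-/

set_option autoImplicit false
set_option linter.style.haveILetI false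
set_option linter.unusedSectionVars false

noncomputable section

open scoped Classical WeierstrassCurve.Affine
open WeierstrassCurve WeierstrassCurve.Affine IsLocalRing

namespace FLTAgent.ModLift

local notation "LL" => AlgebraicClosure ℚ
local notation "GG" => (AlgebraicClosure ℚ ≃ₐ[ℚ] AlgebraicClosure ℚ)

open FLTAgent.LocalEC FLTAgent.FrobTrace FLTAgent.LevelMatch

variable {A : ValuationSubring (AlgebraicClosure ℚ)} {W : WeierstrassCurve ℤ}

section Smooth

variable {K : Type*} [Field K] {B : ValuationSubring K} {V : WeierstrassCurve.Affine K}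

/-- The reduction of a node model is nodal. -/
theorem exists_isNodal [IsAlgClosed (ResidueField B)] (hN : NodeModel B V) :
    ∃ d d', IsNodal hN.toIntCoeff.redCurve d d' := by
  set U := hN.toIntCoeff.redCurve
  have ha₃ : U.a₃ = 0 := (residue_eq_zero_iff_val_lt_one _).mpr (by
    show B.valuation V.a₃ < 1; rw [hN.a₃_eq, map_zero]; exact zero_lt_one)
  have ha₆ : U.a₆ = 0 := (residue_eq_zero_iff_val_lt_one _).mpr (by
    show B.valuation V.a₆ < 1; rw [hN.a₆_eq, map_zero]; exact zero_lt_one)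
  have ha₄ : U.a₄ = 0 := (residue_eq_zero_iff_val_lt_one _).mpr hN.a₄_lt
  have hb₂ : U.a₁ ^ 2 + 4 * U.a₂ ≠ 0 := by
    have h := (residue_ne_zero_iff_val_eq_one ⟨_, hN.mem_b₂⟩).mpr hN.b₂_unit
    have e : residue B ⟨_, hN.mem_b₂⟩ = U.a₁ ^ 2 + 4 * U.a₂ := by
      change _ = residue B ⟨_, hN.mem₁⟩ ^ 2 + 4 * residue B ⟨_, hN.mem₂⟩
      rw [← map_pow, ← map_ofNat (residue B) 4, ← map_mul, ← map_add]
      rfl
    rwa [e] at h
  obtain ⟨d, hd⟩ := IsAlgClosed.exists_root
    (Polynomial.C 1 * Polynomial.X ^ 2 + Polynomial.C U.a₁ * Polynomial.X + Polynomial.C (-U.a₂))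
    (by rw [Polynomial.degree_quadratic (one_ne_zero (α := ResidueField B))]; decide)
  simp only [Polynomial.IsRoot, Polynomial.eval_add, Polynomial.eval_mul, Polynomial.eval_C,
    Polynomial.eval_pow, Polynomial.eval_X, one_mul] at hd
  exact ⟨d, -U.a₁ - d, by ring, by linear_combination -hd, ha₃, ha₄, ha₆, fun e => hb₂ (by
    linear_combination (-4 : ResidueField B) * hd + (d - (-U.a₁ - d)) * e)⟩

/-- The smooth part has at most `m` points killed by an `m` prime to the residue characteristic. -/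
theorem card_inE0_nsmul_le [DecidableEq K] [DecidableEq (ResidueField B)]
    [IsAlgClosed (ResidueField B)] (hN : NodeModel B V) {m : ℕ} (hm0 : 0 < m)
    (hm : B.valuation (m : K) = 1) (S : Finset V.Point)
    (hS : ∀ P ∈ S, InE0 hN.toIntCoeff P ∧ m • P = 0) : S.card ≤ m := by
  obtain ⟨d, d', hc⟩ := exists_isNodal hN
  have hinj : Set.InjOn (red hN.toIntCoeff) S := by
    intro P hP Q hQ e
    have h1 := sub_inE1_of_red_eq hN.toIntCoeff (hS P hP).1 (hS Q hQ).1 e
    exact sub_eq_zero.mp (eq_zero_of_inE1_of_nsmul hN.toIntCoeff h1 hm (k := m)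
      (by rw [nsmul_sub, (hS P hP).2, (hS Q hQ).2, sub_zero]))
  rw [← Finset.card_image_of_injOn hinj]
  refine hc.card_nsmul_eq_zero_le hm0 fun R hR => ?_
  obtain ⟨P, hP, rfl⟩ := Finset.mem_image.mp hR
  have h := map_nsmul (redHom hN.toIntCoeff) m ⟨P, (hS P hP).1⟩
  rw [show m • (⟨P, (hS P hP).1⟩ : e0Subgroup hN.toIntCoeff) = 0 from Subtype.ext (hS P hP).2,
    map_zero] at h
  exact h.symm

/-- At the residue characteristic some point of order `p` has singular reduction. -/
theorem exists_not_inE0 [DecidableEq K] [IsAlgClosed K] [CharZero K]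
    [IsAlgClosed (ResidueField B)] {p : ℕ} [hp : Fact p.Prime] [CharP (ResidueField B) p]
    (hp2 : p ≠ 2) (hN : NodeModel B V) :
    ∃ P : V.Point, p • P = 0 ∧ ¬ InE0 hN.toIntCoeff P := by
  haveI := MazurPrinciple.node_isElliptic hN
  by_contra hc
  push Not at hc
  have hodd := hp.out.odd_of_ne_two hp2
  have hp3 : 3 ≤ p := hp.out.two_le.lt_of_ne (Ne.symm hp2)
  obtain ⟨Am, Bp, hmul⟩ := FLTAgent.Torsion.exists_isMulPoly (W := V) p
  have hB0 := (mulPoly_den_natDegree hmul hp.out.ne_zero).1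
  have hout : ∀ r ∈ Bp.roots.toFinset, r ∉ B := by
    intro r hr
    rw [Multiset.mem_toFinset, Polynomial.mem_roots hB0] at hr
    obtain ⟨s, hs⟩ := FLTAgent.Torsion.exists_point_of_X (W := V) r
    have h0 := (hmul.nsmul_eq_zero_iff hs).mpr hr
    exact MazurPrinciple.inE1_of_inE0_of_nsmul hN (hc _ h0) h0
  -- the two-torsion point on the smooth part
  have h2 : B.valuation (2 : K) = 1 := by
    have h : (residue B) (2 : B) ≠ 0 := by
      rw [map_ofNat, show (2 : ResidueField B) = ((2 : ℕ) : ResidueField B) by norm_num]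
      rw [Ne, CharP.cast_eq_zero_iff _ p]
      exact fun h => hp2 ((Nat.prime_dvd_prime_iff_eq hp.out Nat.prime_two).mp h)
    exact (residue_ne_zero_iff_val_eq_one (2 : B)).mp h
  have h4 : B.valuation (4 : K) = 1 := by
    rw [show (4 : K) = 2 * 2 by norm_num, map_mul, h2, one_mul]
  obtain ⟨x₀, hx₀⟩ := IsAlgClosed.exists_root
    (Polynomial.C 4 * Polynomial.X ^ 2 + Polynomial.C V.b₂ * Polynomial.X +
      Polynomial.C (4 * V.a₄))
    (by rw [Polynomial.degree_quadratic (by norm_num : (4 : K) ≠ 0)]; decide)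
  simp only [Polynomial.IsRoot, Polynomial.eval_add, Polynomial.eval_mul, Polynomial.eval_C,
    Polynomial.eval_pow, Polynomial.eval_X] at hx₀
  obtain ⟨x, hx, hxv⟩ : ∃ x : K, 4 * x ^ 2 + V.b₂ * x + 4 * V.a₄ = 0 ∧ B.valuation x = 1 := by
    -- the two roots have unit sum and product of valuation below one
    have key : ∀ z : K, 4 * z ^ 2 + V.b₂ * z + 4 * V.a₄ = 0 → B.valuation z ≤ 1 := fun z hz => by
      by_contra hz1
      rw [not_le] at hz1
      have hlt : B.valuation (V.b₂ * z + 4 * V.a₄) < B.valuation (4 * z ^ 2) := by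
        rw [map_mul B.valuation 4, h4, one_mul, map_pow, sq]
        refine B.valuation.map_add_lt ?_ ?_
        · rw [map_mul, hN.b₂_unit, one_mul]
          exact lt_mul_of_one_lt_left (zero_lt_one.trans hz1) hz1
        · rw [map_mul, h4, one_mul]
          exact hN.a₄_lt.trans (one_lt_mul'' hz1 hz1)
      have h' := B.valuation.map_add_eq_of_lt_left hlt
      rw [← add_assoc, hz, map_zero, map_mul, h4, one_mul, map_pow] at h'
      exact (pow_pos (zero_lt_one.trans hz1) 2).ne h'
    rcases (key x₀ hx₀).lt_or_eq with hlt | heq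
    · refine ⟨-V.b₂ / 4 - x₀, by field_simp; linear_combination 4 * hx₀, ?_⟩
      rw [B.valuation.map_sub_eq_of_lt_left, map_div₀, Valuation.map_neg, hN.b₂_unit, h4, div_one]
      rwa [map_div₀, Valuation.map_neg, hN.b₂_unit, h4, div_one]
    · exact ⟨x₀, hx₀, heq⟩
  set y : K := -V.a₁ * x / 2 with hy
  have hψ : psi V x y = 0 := by rw [psi, hN.a₃_eq, hy]; ring
  have he : V.Equation x y := by
    rw [equation_iff, hN.a₃_eq, hN.a₆_eq, hy]
    simp only [b₂] at hx
    field_simp
    linear_combination (-x) * hx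
  have hns := equation_iff_nonsingular.mp he
  have hxB : x ∈ B := mem_of_val_le_one hxv.le
  have hyB := hN.toIntCoeff.y_mem he hxB
  have h0 : InE0 hN.toIntCoeff (Point.some x y hns) := hN.inE0_iff.mpr (by rw [xVal_some, hxv])
  obtain ⟨_, _, hred⟩ := h0.resolve_left (fun h => h hxB)
  have hprod := val_p_mul_prod_eq_one hN.toIntCoeff hodd hmul hxB hyB hns hψ hred
  rw [Finset.filter_true_of_mem hout] at hprod
  have hlt := MazurPrinciple.mulPoly_den_node_lt hN hodd hp3 hmul
  rw [mulPoly_den_eval hodd hmul 0, map_mul, map_pow, map_pow, ← mul_pow, map_prod,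
    Finset.prod_congr rfl (fun r _ => by rw [zero_sub, B.valuation.map_neg]), hprod,
    one_pow] at hlt
  exact lt_irrefl _ hlt

/-- Outside `E₀`, points of the same abscissa valuation and the same tangent slope differ by
an element of `E₀`. -/
theorem sub_inE0_of_slope [DecidableEq K] (hN : NodeModel B V) {x₁ y₁ x₂ y₂ : K}
    (h₁ : V.Nonsingular x₁ y₁) (h₂ : V.Nonsingular x₂ y₂)
    (hu : B.valuation V.a₄ < B.valuation x₁) (hx : B.valuation x₁ < 1)
    (hv : B.valuation x₂ = B.valuation x₁) (hs : B.valuation (y₁ / x₁ - y₂ / x₂) < 1) :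
    InE0 hN.toIntCoeff (Point.some x₁ y₁ h₁ - Point.some x₂ y₂ h₂) := by
  have hx0 : (0 : B.ValueGroup) < B.valuation x₁ := hN.u_pos.trans hu
  have hxne : x₁ ≠ 0 := B.valuation.pos_iff.mp hx0
  have hx2 : x₂ ≠ 0 := B.valuation.pos_iff.mp (hv ▸ hx0)
  have hxB : x₁ ∈ B := mem_of_val_le_one hx.le
  have hx2B : x₂ ∈ B := mem_of_val_le_one (hv ▸ hx.le)
  set r := y₁ / x₁ with hrdef
  set r' := y₂ / x₂ with hr'def
  have hr : r ∈ B := mem_of_val_le_one (by
    rw [map_div₀]; exact div_le_one_of_le₀ (hN.val_y_le h₁.1 hu.le hx.le) zero_le)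
  have hy₁ : y₁ = r * x₁ := (div_mul_cancel₀ _ hxne).symm
  have hy₂ : y₂ = r' * x₂ := (div_mul_cancel₀ _ hx2).symm
  have hd : B.valuation (x₁ - x₂) ≤ B.valuation x₁ := B.valuation.map_sub_le le_rfl hv.le
  rcases hd.lt_or_eq with hlt | heq
  · refine inE0_of_inE1 _ (sub_inE1_of_val_lt hN.toIntCoeff h₁ h₂ hxB hx2B ?_ ?_) <;>
      rw [hN.val_psi h₁.1 hu hx]
    · exact hlt
    · have e : y₁ - y₂ = r * (x₁ - x₂) + (r - r') * x₂ := by rw [hy₁, hy₂]; ring
      rw [e]
      refine B.valuation.map_add_lt ?_ ?_ <;> rw [map_mul]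
      · exact (mul_le_of_le_one_left' (val_le_one hr)).trans_lt hlt
      · rw [hv]
        exact mul_lt_of_lt_one_left hx0 hs
  · have hne : x₁ ≠ x₂ := fun e => by
      rw [← e, sub_self, map_zero] at heq; exact hx0.ne heq
    have hd0 : x₁ - x₂ ≠ 0 := sub_ne_zero.mpr hne
    have hsum : B.valuation (V.addX x₁ x₂ ((y₁ - y₂) / (x₁ - x₂))) < 1 := by
      set l := (y₁ - y₂) / (x₁ - x₂) with hl
      have hε : B.valuation (l - r) < 1 := by
        have e : l - r = (r - r') * x₂ / (x₁ - x₂) := by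
          rw [hl, hy₁, hy₂]; field_simp; ring
        rw [e, map_div₀, map_mul, hv, heq, div_lt_one₀ hx0]
        exact mul_lt_of_lt_one_left hx0 hs
      have hnode : B.valuation (r ^ 2 + V.a₁ * r - V.a₂) < 1 := by
        have h1 := h₁.1
        rw [equation_iff, hN.a₃_eq, hN.a₆_eq] at h1
        have e : r ^ 2 + V.a₁ * r - V.a₂ = x₁ + V.a₄ / x₁ := by
          rw [hrdef]; field_simp; linear_combination h1
        rw [e]
        refine B.valuation.map_add_lt hx ?_
        rw [map_div₀, div_lt_one₀ hx0]; exact hu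
      have e : V.addX x₁ x₂ l =
          (r ^ 2 + V.a₁ * r - V.a₂) + (l - r) * (l - r + 2 * r + V.a₁) - x₁ - x₂ := by
        simp only [addX]; ring
      rw [e]
      refine B.valuation.map_sub_lt (B.valuation.map_sub_lt (B.valuation.map_add_lt hnode ?_) hx)
        (hv ▸ hx)
      rw [map_mul]
      refine (mul_le_of_le_one_right' (val_le_one ?_)).trans_lt hε
      exact add_mem (add_mem (mem_of_val_le_one hε.le) (mul_mem (natCast_mem B 2) hr)) hN.mem₁
    obtain ⟨y₃, h₃, e₃⟩ := sub_some_of_X_ne h₁ h₂ hne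
    rw [e₃, hN.inE0_iff, xVal_some]
    have key := congrArg B.valuation (addX_add_subX h₁.1 h₂.1 hne)
    rw [map_mul, map_pow, heq, hN.b₄_eq, hN.b₆_eq] at key
    have hnum : B.valuation ((x₁ + x₂) * (2 * x₁ * x₂ + 2 * V.a₄) + V.b₂ * x₁ * x₂ + 0) =
        B.valuation x₁ ^ 2 := by
      have hb : B.valuation (V.b₂ * x₁ * x₂) = B.valuation x₁ ^ 2 := by
        rw [map_mul, map_mul, hN.b₂_unit, one_mul, hv, sq]
      rw [add_zero, B.valuation.map_add_eq_of_lt_right, hb]
      rw [hb, map_mul, sq]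
      refine (mul_le_mul_left (B.valuation.map_add_le le_rfl hv.le) _).trans_lt
        (mul_lt_mul_of_pos_left ?_ hx0)
      refine B.valuation.map_add_lt ?_ ?_
      · rw [map_mul, map_mul, hv]
        refine mul_lt_of_lt_one_left hx0 ((mul_le_of_le_one_left' ?_).trans_lt hx)
        exact val_le_one (natCast_mem B 2)
      · rw [map_mul]
        exact (mul_le_of_le_one_left' (val_le_one (natCast_mem B 2))).trans_lt hu
    rw [hnum] at key
    by_contra hc
    rw [not_le] at hc
    exact (mul_lt_of_lt_one_left (pow_pos hx0 2) (B.valuation.map_add_lt hsum hc)).ne key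

end Smooth

variable (S : SemiNode W A)
include S

/-- A Galois invariant abscissa next to the root. -/
theorem exists_center :
    ∃ c : LL, (∀ σ : GG, σ c = c) ∧ A.valuation (c - S.C.r) ≤ A.valuation S.model.a₄ := by
  set V := barCurve W
  set N := S.node
  refine ⟨(18 * V.b₆ - V.b₂ * V.b₄) / V.c₄, fun σ => ?_, ?_⟩
  · simp [V, WeierstrassCurve.map, b₂, b₄, b₆, c₄, map_div₀, map_ofNat]
  have h1 : V.a₁ = S.model.a₁ := (S.a₁_eq).symm
  have h2 : V.a₂ = S.model.a₂ - 3 * S.C.r := by
    have := S.C.h₂; rw [S.u_eq, S.s_eq] at this; linear_combination -this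
  have h3 : V.a₃ = S.model.a₃ - S.C.r * V.a₁ - 2 * S.C.t := by
    have := S.C.h₃; rw [S.u_eq] at this; linear_combination -this
  have h4 : V.a₄ = S.model.a₄ - 2 * S.C.r * V.a₂ + S.C.t * V.a₁ - 3 * S.C.r ^ 2 := by
    have := S.C.h₄; rw [S.u_eq, S.s_eq] at this; linear_combination -this
  have h6 : V.a₆ = S.model.a₆ - S.C.r * V.a₄ - S.C.r ^ 2 * V.a₂ - S.C.r ^ 3 + S.C.t * V.a₃ +
      S.C.t ^ 2 + S.C.r * S.C.t * V.a₁ := by
    have := S.C.h₆; rw [S.u_eq] at this; linear_combination -this
  have hc4 : V.c₄ = S.model.c₄ := by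
    simp only [c₄, b₂, b₄, h4, h3, h2, h1]; ring
  have hv4 : A.valuation S.model.c₄ = 1 := by
    rw [c₄, N.b₄_eq, A.valuation.map_sub_eq_of_lt_left, map_pow, N.b₂_unit, one_pow]
    rw [map_pow, N.b₂_unit, one_pow, show (24 : LL) * (2 * S.model.a₄) = 48 * S.model.a₄ by ring,
      map_mul]
    exact (mul_le_of_le_one_left' (val_le_one (natCast_mem A 48))).trans_lt N.a₄_lt
  have hne : V.c₄ ≠ 0 := fun h => by
    rw [← hc4, h, map_zero] at hv4; exact zero_ne_one hv4
  have e : (18 * V.b₆ - V.b₂ * V.b₄) / V.c₄ - S.C.r =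
      -(2 * S.model.b₂ * S.model.a₄) / S.model.c₄ := by
    rw [div_sub' hne, ← hc4]
    congr 1
    simp only [c₄, b₂, b₄, b₆, h6, h4, h3, h2, h1, N.a₃_eq, N.a₆_eq]
    ring
  rw [e, map_div₀, hv4, div_one, Valuation.map_neg, map_mul, map_mul, N.b₂_unit, mul_one]
  exact mul_le_of_le_one_left' (val_le_one (natCast_mem A 2))

/-- The points of singular reduction have an abscissa of the valuation of an element moved as
the point. -/
theorem val_model_abscissa {c : LL} (hc : A.valuation (c - S.C.r) ≤ A.valuation S.model.a₄)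
    {x : LL} (hu : A.valuation S.model.a₄ < A.valuation x) :
    A.valuation (x + S.C.r - c) = A.valuation x := by
  rw [show x + S.C.r - c = x - (c - S.C.r) by ring]
  exact A.valuation.map_sub_eq_of_lt_left (hc.trans_lt hu)

/-- Inertia at an odd prime moves odd torsion inside its component. -/
theorem inE0_smul_sub {q : ℕ} (hq : q.Prime) (hq2 : q ≠ 2) (hA : A.LiesOverPrime q) {σ : GG}
    (hσ : σ ∈ A.inertiaSubgroupIn ℚ) {n : ℕ} (hn : Odd n) {T : (barCurve W).Point}
    (hT : n • T = 0) : InE0 (intCoeff_barCurve W A) (σ • T - T) := by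
  have hdec := LocalEC.inertia_le_decomposition hσ
  have hfix := residueFix_of_mem_inertia hσ
  by_cases h0 : InE0 (intCoeff_barCurve W A) T
  · exact sub_mem ((mem_e0Subgroup _).mpr (inE0_smul hdec h0)) ((mem_e0Subgroup _).mpr h0)
  obtain ⟨T', rfl⟩ := S.pointMap_surjective T
  have h0' : ¬ InE0 S.node.toIntCoeff T' := fun h => h0 ((S.inE0_pointMap T').mpr h)
  have hu := S.node.u_lt_xVal hn (S.C.pointMap_injective (by
    rw [map_nsmul, hT, map_zero])) h0'
  have hlt := S.node.not_inE0_iff.mp h0'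
  rcases T' with _ | ⟨x, y, h⟩
  · exact absurd trivial h0'
  rw [xVal_some] at hu hlt
  obtain ⟨h', e⟩ := smul_bar_some σ (S.C.nonsingular_map h)
  obtain ⟨Q', hQ'⟩ := S.pointMap_surjective (σ • S.C.pointMap (Point.some x y h))
  have e2 : S.C.pointMap Q' = Point.some (σ (S.C.X x)) (σ (S.C.Y x y)) h' := hQ'.trans e
  rcases Q' with _ | ⟨x', y', h''⟩
  · exact absurd e2.symm (Point.some_ne_zero _)
  rw [S.C.pointMap_some, Point.some.injEq, S.X_eq, S.X_eq, S.Y_eq, S.Y_eq, map_add, map_add] at e2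
  have hr := S.val_r_sub_le hdec
  have h2 : A.valuation (2 : LL) = 1 := by
    simpa using val_natCast_eq_one hA hq (n := 2) fun h =>
      hq2 ((Nat.prime_dvd_prime_iff_eq hq Nat.prime_two).mp h)
  have ht : A.valuation (σ S.C.t - S.C.t) ≤ A.valuation S.model.a₄ := by
    have h3 := S.C.h₃
    rw [S.u_eq, S.node.a₃_eq, mul_zero] at h3
    have h3' := congrArg σ h3
    simp only [map_zero, map_add, map_mul, map_ofNat] at h3'
    have f3 : σ (barCurve W).a₃ = (barCurve W).a₃ := by simp [WeierstrassCurve.map]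
    have f1 : σ (barCurve W).a₁ = (barCurve W).a₁ := by simp [WeierstrassCurve.map]
    rw [f3, f1] at h3'
    have e3 : 2 * (σ S.C.t - S.C.t) = -((barCurve W).a₁ * (σ S.C.r - S.C.r)) := by
      linear_combination h3 - h3'
    have e4 := congrArg A.valuation e3
    rw [map_mul, h2, one_mul, Valuation.map_neg, map_mul] at e4
    rw [e4]
    exact (mul_le_of_le_one_left' (val_le_one (intCoeff_barCurve W A).mem₁)).trans hr
  have hσx : A.valuation (σ x) = A.valuation x := val_map_decomposition hdec x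
  have hx' : A.valuation x' = A.valuation x := by
    rw [show x' = σ x + (σ S.C.r - S.C.r) by linear_combination e2.1,
      A.valuation.map_add_eq_of_lt_left, hσx]
    rw [hσx]; exact hr.trans_lt hu
  have hx0 : (0 : A.ValueGroup) < A.valuation x := S.node.u_pos.trans hu
  have hxne : x ≠ 0 := A.valuation.pos_iff.mp hx0
  have hx'ne : x' ≠ 0 := A.valuation.pos_iff.mp (hx' ▸ hx0)
  have hr0 : y / x ∈ A := mem_of_val_le_one (by
    rw [map_div₀]; exact div_le_one_of_le₀ (S.node.val_y_le h.1 hu.le hlt.le) zero_le)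
  have hs : A.valuation (y' / x' - y / x) < 1 := by
    have e5 : y' / x' - y / x =
        ((σ S.C.t - S.C.t) - y / x * (σ S.C.r - S.C.r) + (σ (y / x) - y / x) * σ x) / x' := by
      have hy0 : σ (y / x) * σ x = σ y := by rw [← map_mul, div_mul_cancel₀ _ hxne]
      have hxe : x' = σ x + (σ S.C.r - S.C.r) := by linear_combination e2.1
      have hye : y' = σ y + (σ S.C.t - S.C.t) := by linear_combination e2.2
      rw [eq_div_iff hx'ne, sub_mul, div_mul_cancel₀ _ hx'ne]
      linear_combination hye - (y / x) * hxe - hy0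
    rw [e5, map_div₀, hx', div_lt_one₀ hx0]
    refine A.valuation.map_add_lt (A.valuation.map_sub_lt (ht.trans_lt hu) ?_) ?_
    · rw [map_mul]
      exact (mul_le_of_le_one_left' (val_le_one hr0)).trans_lt (hr.trans_lt hu)
    · rw [map_mul, hσx]
      exact mul_lt_of_lt_one_left hx0 (hfix _ hr0)
  rw [← hQ', ← map_sub, S.inE0_pointMap]
  exact sub_inE0_of_slope S.node h'' h (hx' ▸ hu) (hx' ▸ hlt) hx'.symm hs

/-- Away from the residue characteristic the torsion of `p`-power order is ramified. -/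
theorem exists_inertia_moves (hW : W.Δ ≠ 0) {q : ℕ} [hq : Fact q.Prime] (hA : A.LiesOverPrime q)
    {p : ℕ} [hp : Fact p.Prime] (hp2 : p ≠ 2) (hqp : q ≠ p) :
    ∃ σ ∈ A.inertiaSubgroupIn ℚ, ∃ (n : ℕ) (T : (barCurve W).Point),
      p ^ n • T = 0 ∧ σ • T ≠ T := by
  haveI := isAlgClosed_residueField A
  by_contra hc
  push Not at hc
  obtain ⟨c, hcfix, hcv⟩ := exists_center S
  set u := A.valuation S.model.a₄
  have hq1 : A.valuation (q : LL) < 1 := A.mem_nonunits_iff.mp hA
  have hq0 : (0 : A.ValueGroup) < A.valuation (q : LL) :=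
    A.valuation.pos_iff.mpr (Nat.cast_ne_zero.mpr hq.out.ne_zero)
  -- a power of `q` below `a₄`
  obtain ⟨k, hk⟩ : ∃ k : ℤ, A.valuation (q : LL) ^ k ≤ u := by
    have halg : IsAlgebraic ℤ (S.model.a₄⁻¹) :=
      (IsFractionRing.isAlgebraic_iff ℤ ℚ LL).mpr ((AlgebraicClosure.isAlgebraic ℚ).isAlgebraic _)
    obtain ⟨d, hd0, hd⟩ := halg.exists_integral_multiple
    obtain ⟨k, hk⟩ := Mazur.exists_zpow_valuation A hq.out hA (a := (d : LL))
      (Int.cast_ne_zero.mpr hd0) fun σ _ => map_intCast σ d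
    refine ⟨k, ?_⟩
    rw [← hk]
    have h1 := val_le_one (Frobenius.integralClosure_le A ⟨_, hd⟩)
    simp only [zsmul_eq_mul, map_mul, map_inv₀] at h1
    rwa [mul_inv_le_iff₀ S.node.u_pos, one_mul] at h1
  -- the valuations of abscissae
  obtain ⟨n, hn⟩ : ∃ n : ℕ, 2 * k.toNat + 1 < p ^ n :=
    ⟨_, Nat.lt_pow_self (n := 2 * k.toNat + 1) hp.out.one_lt⟩
  set m := p ^ n
  have hm0 : 0 < m := pow_pos hp.out.pos n
  have hvm : A.valuation (m : LL) = 1 := val_natCast_eq_one hA hq.out fun h =>
    hqp ((Nat.prime_dvd_prime_iff_eq hq.out hp.out).mp (hq.out.dvd_of_dvd_pow h))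
  haveI : Finite {T : (barCurve W).Point // m • T = 0} :=
    Nat.finite_of_card_ne_zero (by rw [card_bar_torsion hW hm0.ne']; positivity)
  letI : Fintype {T : (barCurve W).Point // m • T = 0} := Fintype.ofFinite _
  choose pre hpre using S.pointMap_surjective
  set s : Finset S.model.Point := (Finset.univ : Finset {T : (barCurve W).Point // m • T = 0}).image
    fun T => pre T.1
  have hcard : s.card = m ^ 2 := by
    rw [Finset.card_image_of_injective, Finset.card_univ, ← Nat.card_eq_fintype_card,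
      card_bar_torsion hW hm0.ne']
    intro a b e
    exact Subtype.ext ((hpre _).symm.trans ((congrArg S.C.pointMap e).trans (hpre _)))
  have hs : ∀ P ∈ s, m • P = 0 := by
    intro P hP
    obtain ⟨T, -, rfl⟩ := Finset.mem_image.mp hP
    refine S.C.pointMap_injective ?_
    rw [map_nsmul, hpre, T.2, map_zero]
  have hval : ∀ P ∈ s, ¬ InE0 S.node.toIntCoeff P →
      ∃ i : ℕ, 1 ≤ i ∧ i ≤ k.toNat ∧ xVal A P = A.valuation (q : LL) ^ i := by
    intro P hP h0
    have hP' := hs P hP
    have hu := S.node.u_lt_xVal ((hp.out.odd_of_ne_two hp2).pow) hP' h0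
    have hlt := S.node.not_inE0_iff.mp h0
    rcases P with _ | ⟨x, y, h⟩
    · exact absurd trivial h0
    rw [xVal_some] at hu hlt
    have e := val_model_abscissa S hcv hu
    have hne : x + S.C.r - c ≠ 0 := fun hz => by
      rw [hz, map_zero] at e; exact (S.node.u_pos.trans hu).ne e
    obtain ⟨i, hi⟩ := Mazur.exists_zpow_valuation A hq.out hA hne fun σ hσ => by
      have hT : p ^ n • S.C.pointMap (Point.some x y h) = 0 := by
        rw [← map_nsmul, hP', map_zero]
      have hm := hc σ hσ n _ hT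
      obtain ⟨h', e'⟩ := smul_bar_some σ (S.C.nonsingular_map h)
      rw [S.C.pointMap_some] at hm
      have h1 := e'.symm.trans hm
      rw [Point.some.injEq] at h1
      rw [map_sub, hcfix, ← S.X_eq, h1.1]
    rw [e] at hi
    have hi1 : 1 ≤ i := by
      by_contra hi'
      have := one_le_zpow_of_nonpos₀ hq0 hq1.le (show i ≤ 0 by omega)
      rw [← hi] at this
      exact absurd hlt (not_lt.mpr this)
    have hik : i < k := by
      by_contra hi'
      have := (zpow_right_strictAnti₀ hq0 hq1).antitone (show k ≤ i by omega)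
      rw [← hi] at this
      exact absurd hu (not_lt.mpr (this.trans hk))
    refine ⟨i.toNat, by omega, by omega, ?_⟩
    rw [xVal_some, hi, ← zpow_natCast, Int.toNat_of_nonneg (by omega)]
  -- the classes modulo the smooth part
  have hsub : ∀ P₀ : S.model.Point, m • P₀ = 0 → ∀ t ⊆ s,
      (∀ P ∈ t, InE0 S.node.toIntCoeff (P - P₀)) → t.card ≤ m := by
    intro P₀ hP₀ t ht h
    rw [← Finset.card_image_of_injective t (sub_left_injective (b := P₀))]
    refine card_inE0_nsmul_le S.node hm0 hvm _ fun R hR => ?_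
    obtain ⟨P, hP, rfl⟩ := Finset.mem_image.mp hR
    exact ⟨h P hP, by rw [nsmul_sub, hs P (ht hP), hP₀, sub_zero]⟩
  set e0 := s.filter fun P => InE0 S.node.toIntCoeff P
  have he0 : e0.card ≤ m := hsub 0 (nsmul_zero _) _ (Finset.filter_subset _ _) fun P hP => by
    rw [sub_zero]; exact (Finset.mem_filter.mp hP).2
  set rest := s.filter fun P => ¬ InE0 S.node.toIntCoeff P
  have hcls : ∀ i : ℕ, 1 ≤ i → i ≤ k.toNat →
      (rest.filter fun P => xVal A P = A.valuation (q : LL) ^ i).card ≤ 2 * m := by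
    intro i _ _
    set t := rest.filter fun P => xVal A P = A.valuation (q : LL) ^ i
    rcases t.eq_empty_or_nonempty with he | ⟨P₀, hP₀⟩
    · rw [he, Finset.card_empty]; exact Nat.zero_le _
    simp only [t, rest, Finset.mem_filter] at hP₀
    have hm0' := hs _ hP₀.1.1
    have hu0 := S.node.u_lt_xVal ((hp.out.odd_of_ne_two hp2).pow) hm0' hP₀.1.2
    have hlt0 := S.node.not_inE0_iff.mp hP₀.1.2
    have hcov : t ⊆ t.filter (fun P => InE0 S.node.toIntCoeff (P - P₀)) ∪
        t.filter (fun P => InE0 S.node.toIntCoeff (P - -P₀)) := by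
      intro P hP
      have hP' := hP
      simp only [t, rest, Finset.mem_filter] at hP'
      rcases S.node.add_or_sub_inE0 hu0 hlt0 (hP'.2.trans hP₀.2.symm) with h | h
      · exact Finset.mem_union_right _ (Finset.mem_filter.mpr ⟨hP, by
          rw [sub_neg_eq_add, add_comm]; exact h⟩)
      · exact Finset.mem_union_left _ (Finset.mem_filter.mpr ⟨hP, by
          rw [← neg_sub]; exact inE0_neg _ h⟩)
    refine (Finset.card_le_card hcov).trans ((Finset.card_union_le _ _).trans ?_)
    rw [two_mul]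
    refine Nat.add_le_add (hsub P₀ hm0' _ ?_ fun P hP => (Finset.mem_filter.mp hP).2)
      (hsub (-P₀) (by rw [neg_nsmul, hm0', neg_zero]) _ ?_ fun P hP => (Finset.mem_filter.mp hP).2)
      <;> exact (Finset.filter_subset _ _).trans
        ((Finset.filter_subset _ _).trans (Finset.filter_subset _ _))
  have hrest : rest.card ≤ k.toNat * (2 * m) := by
    have hcov : rest ⊆ (Finset.Icc 1 k.toNat).biUnion fun i =>
        rest.filter fun P => xVal A P = A.valuation (q : LL) ^ i := by
      intro P hP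
      have hP' := Finset.mem_filter.mp hP
      obtain ⟨i, h1, h2, h3⟩ := hval P hP'.1 hP'.2
      exact Finset.mem_biUnion.mpr
        ⟨i, Finset.mem_Icc.mpr ⟨h1, h2⟩, Finset.mem_filter.mpr ⟨hP, h3⟩⟩
    refine (Finset.card_le_card hcov).trans (Finset.card_biUnion_le.trans ?_)
    refine (Finset.sum_le_card_nsmul _ _ (2 * m) fun i hi => hcls i (Finset.mem_Icc.mp hi).1
      (Finset.mem_Icc.mp hi).2).trans ?_
    simp
  have htot : e0.card + rest.card = s.card := Finset.card_filter_add_card_filter_not _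
  have : m ^ 2 ≤ (2 * k.toNat + 1) * m := by
    rw [← hcard, ← htot]; linarith
  rw [sq] at this
  exact absurd (Nat.le_of_mul_le_mul_right this hm0) (not_le.mpr hn)

end FLTAgent.ModLift
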