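import Fermat.Agent.ModLift.WPoint.Tate
import Fermat.Agent.ModLift.WPoint.Node

/-!
# The Tate module at a bad prime: the special and the ordinary shapes

At one place the torsion with nonsingular reduction gives the line; the matrix identities are then
carried to every place over the same prime by conjugation.
-/

set_option autoImplicit false
set_option linter.style.haveILetI false
set_option linter.unusedSectionVars false

noncomputable section

open scoped Classical WeierstrassCurve.Affine Pointwise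
open WeierstrassCurve WeierstrassCurve.Affine IsLocalRing Matrix

namespace FLTAgent.ModLift

local notation "LL" => AlgebraicClosure ℚ
local notation "GG" => (AlgebraicClosure ℚ ≃ₐ[ℚ] AlgebraicClosure ℚ)

open FLTAgent.LocalEC FLTAgent.FrobTrace FLTAgent.LevelMatch
open FLTAgent.Frobenius (isFrobeniusAt_conj)

variable {W : WeierstrassCurve ℤ} {p : ℕ} [hp : Fact p.Prime]
  (B : TateBasis (barCurve W).Point p) {A : ValuationSubring (AlgebraicClosure ℚ)}

theorem isUnit_two (hp2 : p ≠ 2) : IsUnit ((2 : ℕ) : ℤ_[p]) := by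
  rw [PadicInt.isUnit_iff]
  refine le_antisymm (PadicInt.norm_le_one _) (not_lt.mp fun h => ?_)
  have h1 : ((2 : ℕ) : ℤ_[p]) = ((2 : ℤ) : ℤ_[p]) := by norm_num
  rw [h1, PadicInt.norm_int_lt_one_iff_dvd] at h
  exact hp2 ((Nat.prime_dvd_prime_iff_eq hp.out Nat.prime_two).mp (by exact_mod_cast h))

theorem trace_eq_two {R : Deformation.M2 ℤ_[p]} (h : (R - 1) ^ 2 = 0) : Matrix.trace R = 2 := by
  have hd : Matrix.det (R - 1) = 0 := by
    have := congrArg Matrix.det h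
    rwa [Matrix.det_pow, Matrix.det_zero, pow_eq_zero_iff two_ne_zero] at this
  have e00 := congrFun (congrFun h 0) 0
  have e11 := congrFun (congrFun h 1) 1
  simp [sq, Matrix.mul_apply, Fin.sum_univ_two, Matrix.sub_apply] at e00 e11
  simp [Matrix.det_fin_two, Matrix.sub_apply] at hd
  rw [Matrix.trace_fin_two]
  have : (R 0 0 + R 1 1 - 2) ^ 2 = 0 := by linear_combination e00 + e11 + 2 * hd
  linear_combination pow_eq_zero_iff two_ne_zero |>.mp this

/-- Points with nonsingular reduction form a subgroup at each layer. -/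
theorem inE0_pt_smul {n : ℕ} {u : Fin 2 → ℤ_[p]} (x : ℤ_[p])
    (h : InE0 (intCoeff_barCurve W A) (B.pt n u)) :
    InE0 (intCoeff_barCurve W A) (B.pt n (x • u)) := by
  obtain ⟨a, -, ha, -, -⟩ := B.exists_int_approx n fun _ => x
  rw [B.pt_smul n ha]
  exact (mem_e0Subgroup _).mp (zsmul_mem ((mem_e0Subgroup _).mpr h) a)

theorem inE0_pt_add {n : ℕ} {u v : Fin 2 → ℤ_[p]} (h : InE0 (intCoeff_barCurve W A) (B.pt n u))
    (h' : InE0 (intCoeff_barCurve W A) (B.pt n v)) :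
    InE0 (intCoeff_barCurve W A) (B.pt n (u + v)) := by
  rw [map_add]
  exact (mem_e0Subgroup _).mp (add_mem ((mem_e0Subgroup _).mpr h) ((mem_e0Subgroup _).mpr h'))

/-- Vectors all of whose layers have nonsingular reduction. -/
def InLine (A : ValuationSubring LL) (u : Fin 2 → ℤ_[p]) : Prop :=
  ∀ n, InE0 (intCoeff_barCurve W A) (B.pt n u)

theorem eigen_det {M : Deformation.M2 ℤ_[p]} {v : Fin 2 → ℤ_[p]} (hv : v ≠ 0) {c : ℤ_[p]}
    (h : M *ᵥ v = c • v) : c ^ 2 - Matrix.trace M * c + Matrix.det M = 0 := by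
  have hd : Matrix.det (M - c • 1) = 0 :=
    Matrix.exists_mulVec_eq_zero_iff.mp
      ⟨v, hv, by rw [sub_mulVec, h, smul_mulVec, one_mulVec, sub_self]⟩
  simp [Matrix.det_fin_two, Matrix.sub_apply] at hd
  rw [Matrix.trace_fin_two, Matrix.det_fin_two]
  linear_combination hd

section Special

variable (hΔ : W.Δ ≠ 0) (hp2 : p ≠ 2) {q : ℕ} [hq : Fact q.Prime] (hqp : q ≠ p)
include hΔ hp2 hqp

theorem val_pow (hA : A.LiesOverPrime q) (n : ℕ) : A.valuation ((p ^ n : ℕ) : LL) = 1 :=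
  val_natCast_eq_one hA hq.out
    fun h => hqp ((Nat.prime_dvd_prime_iff_eq hq.out hp.out).mp (hq.out.dvd_of_dvd_pow h))

theorem unipotent_inertia (hss : W.IsSemistableModel) (hA : A.LiesOverPrime q) {σ : GG}
    (hσ : σ ∈ A.inertiaSubgroupIn ℚ) :
    Matrix.trace (B.tateRep σ) = 2 ∧ (B.tateRep σ - 1 : Deformation.M2 ℤ_[p]) ^ 2 = 0 := by
  have h := tateRep_inertia B hΔ hss hp2 (fun τ hτ => by
    rw [det_eq_of_cyclo B hΔ hp2 hτ, Nat.cast_one]) hq.out hqp hA hσ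
  exact ⟨trace_eq_two h, h⟩

theorem exists_ramified (S : SemiNode W A) (hA : A.LiesOverPrime q) :
    ∃ σ ∈ A.inertiaSubgroupIn ℚ, B.tateRep σ ≠ 1 := by
  obtain ⟨σ, hσ, n, T, hT, hne⟩ := exists_inertia_moves S hΔ hA hp2 hqp
  refine ⟨σ, hσ, fun h => hne ?_⟩
  obtain ⟨u, rfl⟩ := B.exists_pt n hT
  rw [B.smul_pt, h, Matrix.one_mulVec]

/-- The trace of Frobenius at one place. -/
theorem exists_sign (hss : W.IsSemistableModel) (S : SemiNode W A) (hA : A.LiesOverPrime q) :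
    ∃ ε : ℤ_[p], ε ^ 2 = 1 ∧ ∀ φ : GG, A.IsFrobeniusAt φ q →
      Matrix.trace (B.tateRep φ) = ε * ((q : ℤ_[p]) + 1) := by
  obtain ⟨σ, hσ, hσne⟩ := exists_ramified B hΔ hp2 hqp S hA
  set R : Deformation.M2 ℤ_[p] := B.tateRep σ
  have hN2 := (unipotent_inertia B hΔ hp2 hqp hss hA hσ).2
  have hdec := LocalEC.inertia_le_decomposition hσ
  have hline : ∀ u, InLine B A ((R - 1) *ᵥ u) := by
    intro u n
    have hT := B.nsmul_pt n u
    have hval := val_pow hΔ hp2 hqp hA n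
    rw [sub_mulVec, one_mulVec, map_sub, ← B.smul_pt]
    rcases S.inE0_smul_sub_or_add hdec ((hp.out.odd_of_ne_two hp2).pow) hT with h | h
    · exact h
    · have hσT : (p ^ n) • (σ • B.pt n u) = 0 := by rw [nsmul_galois, hT, galois_zero]
      have h2 := inertia_smul_of_inE0 hσ hval (by rw [nsmul_add, hσT, hT, add_zero]) h
      rw [show σ • (σ • B.pt n u + B.pt n u) = σ • (σ • B.pt n u) + σ • B.pt n u from
        map_add (DistribSMul.toAddMonoidHom (barCurve W).Point σ) _ _, B.smul_pt, B.smul_pt,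
        ← map_add, ← map_add, ← sub_eq_zero, ← map_sub, Matrix.mulVec_mulVec] at h2
      have e : R * R = 1 + ((2 : ℕ) : ℤ_[p]) • (R - 1) := by
        have h3 : R * R - (R + R) + 1 = 0 := by rw [← hN2, sq]; noncomm_ring
        rw [Nat.cast_ofNat, two_smul]
        linear_combination (norm := noncomm_ring) h3
      rw [show B.tateRep σ * B.tateRep σ = R * R from rfl, e, add_mulVec, one_mulVec,
        smul_mulVec, sub_mulVec, one_mulVec,
        show u + ((2 : ℕ) : ℤ_[p]) • (R *ᵥ u - u) + R *ᵥ u - (R *ᵥ u + u) =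
          ((2 : ℕ) : ℤ_[p]) • (R *ᵥ u - u) by abel, B.pt_eq_zero_iff] at h2
      rw [B.smul_pt, ← map_sub, show B.pt n (R *ᵥ u - u) = 0 from
        B.pt_eq_zero_iff.mpr fun i => ((isUnit_two hp2).dvd_mul_left).mp (h2 i)]
      exact inE0_zero _
  obtain ⟨u, hu⟩ : ∃ u, (R - 1) *ᵥ u ≠ 0 := by
    by_contra hall
    push Not at hall
    exact hσne (sub_eq_zero.mp (Matrix.ext_of_mulVec_single fun j => by
      rw [hall, Matrix.zero_mulVec]))
  set v := (R - 1) *ᵥ u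
  have hv : InLine B A v := hline u
  have hfix : ∀ τ ∈ A.inertiaSubgroupIn ℚ, B.tateRep τ *ᵥ v = v := fun τ hτ =>
    B.eq_of_forall_pt fun n => by
      rw [← B.smul_pt]
      exact inertia_smul_of_inE0 hτ (val_pow hΔ hp2 hqp hA n) (B.nsmul_pt n v) (hv n)
  have key : ∀ φ : GG, A.IsFrobeniusAt φ q →
      B.tateRep φ *ᵥ v = (q : ℤ_[p]) • v ∨ B.tateRep φ *ᵥ v = (-(q : ℤ_[p])) • v := by
    intro φ hφ
    have hcase : ∀ n, B.pt n (B.tateRep φ *ᵥ v - (q : ℤ_[p]) • v) = 0 ∨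
        B.pt n (B.tateRep φ *ᵥ v - (-(q : ℤ_[p])) • v) = 0 := by
      intro n
      rcases S.frobenius_inE0_torsion hA hφ (val_pow hΔ hp2 hqp hA n) (B.nsmul_pt n v) (hv n)
        with h | h
      · left
        rw [map_sub, ← B.smul_pt, h, Nat.cast_smul_eq_nsmul, map_nsmul, sub_self]
      · right
        rw [map_sub, ← B.smul_pt, h, neg_smul, map_neg, Nat.cast_smul_eq_nsmul, map_nsmul,
          sub_self]
    by_contra hne
    rw [not_or] at hne
    have hex : ∀ c : ℤ_[p], B.tateRep φ *ᵥ v ≠ c • v →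
        ∃ n, B.pt n (B.tateRep φ *ᵥ v - c • v) ≠ 0 := by
      intro c hc
      by_contra h
      push Not at h
      exact hc (sub_eq_zero.mp (B.eq_of_forall_pt (v := 0) fun n => by rw [h n, map_zero]))
    obtain ⟨n₁, h₁⟩ := hex _ hne.1
    obtain ⟨n₂, h₂⟩ := hex _ hne.2
    rcases hcase (n₁ + n₂) with h | h
    · exact h₁ (by rw [← B.nsmul_pow_pt n₁ n₂, h, nsmul_zero])
    · exact h₂ (by rw [← B.nsmul_pow_pt n₂ n₁, add_comm n₂, h, nsmul_zero])
  have htr : ∀ φ : GG, A.IsFrobeniusAt φ q → ∀ ε : ℤ_[p], ε ^ 2 = 1 →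
      B.tateRep φ *ᵥ v = (ε * (q : ℤ_[p])) • v →
      Matrix.trace (B.tateRep φ) = ε * ((q : ℤ_[p]) + 1) := by
    intro φ hφ ε hε h
    have h1 := eigen_det hu h
    rw [det_frobenius B hΔ hp2 hq.out hqp hA hφ] at h1
    have hq0 : (q : ℤ_[p]) ≠ 0 := Nat.cast_ne_zero.mpr hq.out.ne_zero
    refine mul_left_cancel₀ hq0 ?_
    linear_combination (-ε) * h1 + (ε * (q : ℤ_[p]) ^ 2 - Matrix.trace (B.tateRep φ) * q) * hε
  obtain ⟨φ₀, hφ₀⟩ := Frobenius.exists_isFrobeniusAt A q hq.out hA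
  have hall : ∀ φ : GG, A.IsFrobeniusAt φ q → B.tateRep φ *ᵥ v = B.tateRep φ₀ *ᵥ v := by
    intro φ hφ
    have hi := Lowering.P1.Primes.inv_mul_mem_inertia hφ₀ hφ
    calc B.tateRep φ *ᵥ v = B.tateRep (φ₀ * (φ₀⁻¹ * φ)) *ᵥ v := by rw [mul_inv_cancel_left]
      _ = B.tateRep φ₀ *ᵥ v := by rw [map_mul, ← mulVec_mulVec, hfix _ hi]
  rcases key φ₀ hφ₀ with h | h
  · exact ⟨1, one_pow 2, fun φ hφ => htr φ hφ 1 (one_pow 2) (by rw [hall φ hφ, h, one_mul])⟩
  · exact ⟨-1, by norm_num, fun φ hφ => htr φ hφ (-1) (by norm_num)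
      (by rw [hall φ hφ, h, neg_one_mul])⟩

/-- **The special shape.** -/
theorem multiplicative_tate (hss : W.IsSemistableModel) (hbad : (q : ℤ) ∣ W.Δ) :
    ∃ ε : ℤ_[p], ε ^ 2 = 1 ∧ ∀ V : ValuationSubring LL, V.LiesOverPrime q →
      (∀ σ ∈ V.inertiaSubgroupIn ℚ,
        Matrix.trace (B.tateRep σ) = 2 ∧ (B.tateRep σ - 1 : Deformation.M2 ℤ_[p]) ^ 2 = 0) ∧
      (∃ σ ∈ V.inertiaSubgroupIn ℚ, B.tateRep σ ≠ 1) ∧
      ∀ φ : GG, V.IsFrobeniusAt φ q → Matrix.trace (B.tateRep φ) = ε * ((q : ℤ_[p]) + 1) := by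
  obtain ⟨V₀, hV₀⟩ := Frobenius.exists_liesOverPrime q hq.out
  obtain ⟨S₀⟩ := exists_semiNode hΔ hq.out hbad (hss q hq.out hbad) hV₀
  obtain ⟨ε, hε, htr⟩ := exists_sign B hΔ hp2 hqp hss S₀ hV₀
  refine ⟨ε, hε, fun V hV => ⟨fun σ hσ => unipotent_inertia B hΔ hp2 hqp hss hV hσ, ?_, ?_⟩⟩
  · obtain ⟨S⟩ := exists_semiNode hΔ hq.out hbad (hss q hq.out hbad) hV
    exact exists_ramified B hΔ hp2 hqp S hV
  intro φ hφ
  obtain ⟨g, rfl⟩ := Places.exists_smul_eq hq.out hV₀ hV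
  have hφ0 := isFrobeniusAt_conj _ (γ := g⁻¹) hφ
  rw [inv_smul_smul, inv_inv] at hφ0
  have h := htr _ hφ0
  rwa [map_mul, map_mul, Matrix.trace_mul_comm, ← mul_assoc, ← map_mul, mul_inv_cancel, map_one,
    one_mul] at h

end Special

section Ordinary

variable (hp2 : p ≠ 2) (hΔ : W.Δ ≠ 0) (hA : A.LiesOverPrime p) (S : SemiNode W A)
include hp2 hΔ hA S

theorem exists_outside : ∃ u : Fin 2 → ℤ_[p], ¬ InE0 (intCoeff_barCurve W A) (B.pt 1 u) := by
  haveI := isAlgClosed_residueField A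
  haveI := charP_residueField hA
  obtain ⟨P, hP, hout⟩ := exists_not_inE0 hp2 S.node
  obtain ⟨u, hu⟩ := B.exists_pt 1 (T := S.C.pointMap P) (by
    rw [pow_one, ← map_nsmul, hP, map_zero])
  exact ⟨u, fun h => hout ((S.inE0_pointMap P).mp (hu ▸ h))⟩

theorem line_cross {a b : Fin 2 → ℤ_[p]} (ha : InLine B A a) (hb : InLine B A b) :
    a 0 * b 1 = a 1 * b 0 := by
  by_contra hne
  obtain ⟨u₀, hu₀⟩ := exists_outside B hp2 hΔ hA S
  set D := a 0 * b 1 - a 1 * b 0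
  have hD : D ≠ 0 := sub_ne_zero.mpr hne
  set k := D.valuation
  have hDu : ∀ (n : ℕ) (u : Fin 2 → ℤ_[p]), InE0 (intCoeff_barCurve W A) (B.pt n (D • u)) := by
    intro n u
    rw [show D • u = (u 0 * b 1 - u 1 * b 0) • a + (a 0 * u 1 - a 1 * u 0) • b by
      funext i; fin_cases i <;> simp [D] <;> ring]
    exact inE0_pt_add B (inE0_pt_smul B _ (ha n)) (inE0_pt_smul B _ (hb n))
  refine hu₀ ?_
  rw [← B.nsmul_pow_pt 1 k, ← map_nsmul]
  have e : (p ^ k) • u₀ = D • (((PadicInt.unitCoeff hD)⁻¹ : ℤ_[p]ˣ) • u₀) := by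
    rw [Units.smul_def, smul_smul]
    nth_rewrite 1 [PadicInt.unitCoeff_spec hD]
    rw [mul_right_comm, Units.mul_inv, one_mul, ← Nat.cast_smul_eq_nsmul ℤ_[p], Nat.cast_pow]
  rw [e]
  exact hDu _ _

theorem inertia_line {σ : GG} (hσ : σ ∈ A.inertiaSubgroupIn ℚ) (u : Fin 2 → ℤ_[p]) :
    InLine B A ((B.tateRep σ - 1) *ᵥ u) := by
  intro n
  rw [sub_mulVec, one_mulVec, map_sub, ← B.smul_pt]
  exact inE0_smul_sub S hp.out hp2 hA hσ ((hp.out.odd_of_ne_two hp2).pow) (B.nsmul_pt n u)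

theorem frobenius_line : ∃ ε : ℤ_[p], ε ^ 2 = 1 ∧ ∀ φ : GG, A.IsFrobeniusAt φ p →
    ∀ u, InLine B A ((B.tateRep φ - ε • 1) *ᵥ u) := by
  obtain ⟨φ₀, hφ₀⟩ := Frobenius.exists_isFrobeniusAt A p hp.out hA
  set E := intCoeff_barCurve W A
  set R : Deformation.M2 ℤ_[p] := B.tateRep φ₀
  have hcase : ∀ n u, InE0 E (B.pt n ((R - (1 : ℤ_[p]) • 1) *ᵥ u)) ∨
      InE0 E (B.pt n ((R - (-1 : ℤ_[p]) • 1) *ᵥ u)) := by
    intro n u
    rcases S.inE0_smul_sub_or_add hφ₀.mem_decompositionSubgroup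
      ((hp.out.odd_of_ne_two hp2).pow) (B.nsmul_pt n u) with h | h
    · left
      rwa [one_smul, sub_mulVec, one_mulVec, map_sub, ← B.smul_pt]
    · right
      rwa [neg_smul, one_smul, sub_neg_eq_add, add_mulVec, one_mulVec, map_add, ← B.smul_pt]
  have hlayer : ∀ n, (∀ u, InE0 E (B.pt n ((R - (1 : ℤ_[p]) • 1) *ᵥ u))) ∨
      (∀ u, InE0 E (B.pt n ((R - (-1 : ℤ_[p]) • 1) *ᵥ u))) := by
    intro n
    by_contra hc
    rw [not_or, not_forall, not_forall] at hc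
    obtain ⟨⟨u, hu⟩, v, hv⟩ := hc
    have hu' := (hcase n u).resolve_left hu
    have hv' := (hcase n v).resolve_right hv
    rcases hcase n (u + v) with h | h
    · rw [mulVec_add, map_add] at h
      exact hu ((mem_e0Subgroup E).mp ((add_mem_cancel_right
        ((mem_e0Subgroup E).mpr hv')).mp ((mem_e0Subgroup E).mpr h)))
    · rw [mulVec_add, map_add] at h
      exact hv ((mem_e0Subgroup E).mp ((add_mem_cancel_left
        ((mem_e0Subgroup E).mpr hu')).mp ((mem_e0Subgroup E).mpr h)))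
  have hdown : ∀ (c : ℤ_[p]) (n m : ℕ), n ≤ m → (∀ u, InE0 E (B.pt m ((R - c • 1) *ᵥ u))) →
      ∀ u, InE0 E (B.pt n ((R - c • 1) *ᵥ u)) := by
    intro c n m hnm h u
    obtain ⟨d, rfl⟩ := Nat.exists_eq_add_of_le hnm
    rw [← B.nsmul_pow_pt n d]
    exact (mem_e0Subgroup E).mp (nsmul_mem ((mem_e0Subgroup E).mpr (h u)) _)
  obtain ⟨ε, hε, hε0⟩ : ∃ ε : ℤ_[p], ε ^ 2 = 1 ∧ ∀ u, InLine B A ((R - ε • 1) *ᵥ u) := by
    by_contra hc
    push Not at hc
    obtain ⟨u₁, h₁⟩ := hc 1 (one_pow 2)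
    obtain ⟨u₂, h₂⟩ := hc (-1) (by norm_num)
    simp only [InLine, not_forall] at h₁ h₂
    obtain ⟨n₁, h₁⟩ := h₁
    obtain ⟨n₂, h₂⟩ := h₂
    rcases hlayer (n₁ + n₂) with h | h
    · exact h₁ (hdown 1 n₁ (n₁ + n₂) (Nat.le_add_right _ _) h u₁)
    · exact h₂ (hdown (-1) n₂ (n₁ + n₂) (Nat.le_add_left _ _) h u₂)
  refine ⟨ε, hε, fun φ hφ u n => ?_⟩
  have hi := Lowering.P1.Primes.inv_mul_mem_inertia hφ₀ hφ
  have e : B.tateRep φ - ε • 1 = R * (B.tateRep (φ₀⁻¹ * φ) - 1) + (R - ε • 1) := by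
    rw [mul_sub, mul_one, ← map_mul, mul_inv_cancel_left]; abel
  rw [e, add_mulVec, ← mulVec_mulVec, map_add, ← B.smul_pt]
  exact (mem_e0Subgroup E).mp (add_mem ((mem_e0Subgroup E).mpr
    (inE0_smul hφ₀.mem_decompositionSubgroup (inertia_line B hp2 hΔ hA S hi u n)))
    ((mem_e0Subgroup E).mpr (hε0 u n)))

/-- Both images lie in one line. -/
theorem sub_det_mul {σ : GG} (hσ : σ ∈ A.inertiaSubgroupIn ℚ) {N : Deformation.M2 ℤ_[p]}
    (hN : ∀ u, InLine B A (N *ᵥ u)) :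
    (B.tateRep σ - Matrix.det (B.tateRep σ) • 1) * N = 0 := by
  have hc : ∀ {M M' : Deformation.M2 ℤ_[p]}, (∀ u, InLine B A (M *ᵥ u)) →
      (∀ u, InLine B A (M' *ᵥ u)) → ∀ i j, M 0 i * M' 1 j = M 1 i * M' 0 j := by
    intro M M' hM hM' i j
    have h := line_cross B hp2 hΔ hA S (hM (Pi.single i 1)) (hM' (Pi.single j 1))
    simpa using h
  set R : Deformation.M2 ℤ_[p] := B.tateRep σ
  have hM := inertia_line B hp2 hΔ hA S hσ
  have h0 := hc hM hM 0 1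
  have h00 := hc hM hN 0 0
  have h01 := hc hM hN 0 1
  have h10 := hc hM hN 1 0
  have h11 := hc hM hN 1 1
  simp [Matrix.sub_apply] at h0 h00 h01 h10 h11
  ext i j
  fin_cases i <;> fin_cases j <;>
    simp [R, Matrix.mul_apply, Fin.sum_univ_two, Matrix.sub_apply, Matrix.det_fin_two]
  · linear_combination h10 - N 0 0 * h0
  · linear_combination h11 - N 0 1 * h0
  · linear_combination -h00 - N 1 0 * h0
  · linear_combination -h01 - N 1 1 * h0

omit S in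
/-- **The ordinary shape.** -/
theorem ordinary_tate (hss : W.IsSemistableModel) (hbad : (p : ℤ) ∣ W.Δ) :
    ∃ ε : ℤ_[p], ε ^ 2 = 1 ∧ ∀ V : ValuationSubring LL, V.LiesOverPrime p →
      (∀ σ ∈ V.inertiaSubgroupIn ℚ, ∀ τ ∈ V.inertiaSubgroupIn ℚ,
        (B.tateRep σ - Matrix.det (B.tateRep σ) • 1) * (B.tateRep τ - 1) = 0) ∧
      ∀ φ : GG, V.IsFrobeniusAt φ p → ∀ σ ∈ V.inertiaSubgroupIn ℚ,
        (B.tateRep σ - Matrix.det (B.tateRep σ) • 1) * (B.tateRep φ - ε • 1) = 0 := by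
  obtain ⟨S⟩ := exists_semiNode hΔ hp.out hbad (hss p hp.out hbad) hA
  obtain ⟨ε, hε, hφ⟩ := frobenius_line B hp2 hΔ hA S
  refine ⟨ε, hε, fun V hV => ?_⟩
  obtain ⟨g, rfl⟩ := Places.exists_smul_eq hp.out hA hV
  have hback : ∀ σ ∈ (g • A).inertiaSubgroupIn ℚ, g⁻¹ * σ * g ∈ A.inertiaSubgroupIn ℚ := by
    intro σ hσ
    have h := Places.conj_mem_inertia _ hσ g⁻¹
    rwa [inv_smul_smul, inv_inv] at h
  set G : Deformation.M2 ℤ_[p] := B.tateRep g
  set G' : Deformation.M2 ℤ_[p] := B.tateRep g⁻¹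
  have hGG : G * G' = 1 := by rw [← map_mul, mul_inv_cancel, map_one]
  have hG'G : G' * G = 1 := by rw [← map_mul, inv_mul_cancel, map_one]
  have hkey : ∀ (σ : GG) (c : ℤ_[p]), B.tateRep σ - c • 1 =
      G * (B.tateRep (g⁻¹ * σ * g) - c • 1) * G' := by
    intro σ c
    rw [mul_sub, sub_mul, ← map_mul, ← map_mul, show g * (g⁻¹ * σ * g) * g⁻¹ = σ by group,
      mul_smul_comm, mul_one, smul_mul_assoc, hGG]
  have hdet : ∀ σ : GG, Matrix.det (B.tateRep σ) = Matrix.det (B.tateRep (g⁻¹ * σ * g)) := by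
    intro σ
    rw [map_mul, map_mul, Matrix.det_mul, Matrix.det_mul, mul_right_comm, ← Matrix.det_mul]
    rw [show B.tateRep g⁻¹ * B.tateRep g = 1 from hG'G, Matrix.det_one, one_mul]
  have hmul : ∀ X Y : Deformation.M2 ℤ_[p], X * Y = 0 → G * X * G' * (G * Y * G') = 0 := by
    intro X Y h
    rw [show G * X * G' * (G * Y * G') = G * (X * (G' * G) * Y) * G' by noncomm_ring, hG'G,
      mul_one, h, mul_zero, zero_mul]
  refine ⟨fun σ hσ τ hτ => ?_, fun φ hφ' σ hσ => ?_⟩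
  · have h1 := hkey τ 1
    rw [one_smul] at h1
    rw [hkey σ, h1, hdet σ]
    exact hmul _ _ (sub_det_mul B hp2 hΔ hA S (hback σ hσ)
      (inertia_line B hp2 hΔ hA S (hback τ hτ)))
  · have hf : A.IsFrobeniusAt (g⁻¹ * φ * g) p := by
      have h := isFrobeniusAt_conj _ (γ := g⁻¹) hφ'
      rwa [inv_smul_smul, inv_inv] at h
    rw [hkey σ, hkey φ, hdet σ]
    exact hmul _ _ (sub_det_mul B hp2 hΔ hA S (hback σ hσ) (hφ _ hf))

end Ordinary

end FLTAgent.ModLift
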