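import Fermat.Agent.ModLift.WPoint.FlatCurve
import Fermat.Agent.ModLift.WPoint.Local
import Fermat.Agent.LevelMatch.Primes
import Fermat.Agent.CuspForms.IntegralStructure
import Fermat.Agent.CuspForms.HeckeDual
import Fermat.Agent.EigenLattice.MultOne

/-!
# The point of the curve
-/

set_option autoImplicit false
set_option linter.style.haveILetI false

noncomputable section

open scoped Classical WeierstrassCurve.Affine

namespace FLTAgent.ModLift

local notation "LL" => AlgebraicClosure ℚ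
local notation "GG" => (AlgebraicClosure ℚ ≃ₐ[ℚ] AlgebraicClosure ℚ)

open FLTAgent.LevelMatch FLTAgent.FrobTrace

/-- **The point exists.** -/
theorem targetCurvePoint : TargetCurvePoint := by
  intro p _ hp2 W hΔ hss
  obtain ⟨B⟩ := exists_tateBasis_curve hΔ p
  obtain ⟨b, hb⟩ := exists_residual B hΔ
  exact ⟨{
    r := tateGL B
    b := b
    residual := hb
    continuous := fun n => by
      obtain ⟨L, hL, h⟩ := matCts_tateRep hΔ B n
      refine ⟨L, hL, fun σ hσ i j => ?_⟩
      rw [span_pow_eq]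
      exact h σ hσ i j
    det_cyclotomic := fun n σ c hc => det_tateRep B hΔ hp2 hc
    unramified := fun q hq hqp hg V hV σ hσ => Units.ext (inertia_good B hq hqp hg hV hσ)
    trace_frob := fun q hq hqp hg V hV φ hφ => trace_good B hΔ hp2 hq hqp hg hV hφ
    multiplicative := fun q hq hqp hd => by
      haveI : Fact q.Prime := ⟨hq⟩
      obtain ⟨ε, hε, h⟩ := multiplicative_tate B hΔ hp2 hqp hss hd
      refine ⟨ε, hε, fun V hV => ⟨(h V hV).1, ?_, (h V hV).2.2⟩⟩
      obtain ⟨σ, hσ, hne⟩ := (h V hV).2.1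
      exact ⟨σ, hσ, fun e => hne (congrArg Units.val e)⟩
    flat := fun hg V hV n => flat_tate B hΔ hg hV n
    ordinary := fun hd => by
      obtain ⟨A, hA⟩ := Frobenius.exists_liesOverPrime p (Fact.out : p.Prime)
      exact ordinary_tate B hp2 hΔ hA hss hd }⟩

/-- **A character with the values of the curve gives modularity.** -/
theorem targetModularOfChar : TargetModularOfChar := by
  intro W hΔ N _ bad hlev Ω _ _ θ hθ
  haveI := CuspForms.moduleFinite_heckeAlgebra N 2 (↑bad : Set ℕ)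
  haveI := CuspForms.moduleFinite_heckeAlgebra N 2 (∅ : Set ℕ)
  set θ' : CuspForm.heckeAlgebra N 2 (↑bad : Set ℕ) →+* θ.range := θ.rangeRestrict
  haveI : Module.Finite ℤ θ.range :=
    Module.Finite.of_surjective θ'.toAddMonoidHom.toIntLinearMap θ.rangeRestrict_surjective
  haveI : Algebra.IsAlgebraic ℤ θ.range := ⟨fun x => (Algebra.IsIntegral.isIntegral x).isAlgebraic⟩
  let ι : θ.range →+* ℂ := (IsAlgClosed.lift (R := ℤ) (S := θ.range) (M := ℂ)).toRingHom
  have hι : Function.Injective ι := by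
    intro a b e
    by_contra hne
    have hmem : a - b ∈ RingHom.ker ι := by rw [RingHom.mem_ker, map_sub, e, sub_self]
    obtain ⟨c, hc, hc0⟩ := Submodule.exists_mem_ne_zero_of_ne_bot
      (Ideal.comap_ne_bot_of_integral_mem (R := ℤ) (sub_ne_zero.mpr hne) hmem
        (Algebra.IsIntegral.isIntegral _))
    rw [Ideal.mem_comap, RingHom.mem_ker, eq_intCast, map_intCast] at hc
    exact hc0 (Int.cast_eq_zero.mp hc)
  set inc : CuspForm.heckeAlgebra N 2 (↑bad : Set ℕ) →+* CuspForm.heckeAlgebra N 2 (∅ : Set ℕ) :=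
    (Subalgebra.inclusion (CuspForm.heckeAlgebra_mono (Set.empty_subset _))).toRingHom
  obtain ⟨χH, hχH⟩ := EigenLattice.exists_extend_hom inc (ι.comp θ')
    (fun t ht => by
      rw [RingHom.mem_ker] at ht ⊢
      have : t = 0 := Subtype.ext (congrArg Subtype.val ht :)
      rw [this, map_zero])
  obtain ⟨g, hg, hgc⟩ :=
    CuspForms.exists_eigenform_of_ringHom (CuspForms.hasIntegralStructure N 2) χH
  set N' := N * ∏ l ∈ bad.filter Nat.Prime, l
  have hN' : N' ≠ 0 := mul_ne_zero (NeZero.ne N)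
    (Finset.prod_ne_zero_iff.mpr fun l hl => (Finset.mem_filter.mp hl).2.ne_zero)
  have hagree : ∀ ℓ : ℕ, ℓ.Prime → W.IsGoodPrimeFor ℓ → ¬ ℓ ∣ N' →
      ModularFormClass.qCoeff g ℓ = (W.apOfModel ℓ : ℂ) := by
    intro ℓ hℓ hgood hℓN
    have hlN : ¬ ℓ ∣ N := fun h => hℓN (h.mul_right _)
    have hlb : ℓ ∉ (↑bad : Set ℕ) := fun h =>
      hℓN ((Finset.dvd_prod_of_mem _ (Finset.mem_filter.mpr ⟨h, hℓ⟩)).mul_left N)
    rw [hgc ℓ hℓ, CuspForms.heckeGen, dif_neg hlN]
    refine (hχH (CuspForm.heckeAlgebra.T hℓ hlN hlb)).trans ?_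
    rw [RingHom.comp_apply, show θ' (CuspForm.heckeAlgebra.T hℓ hlN hlb) =
      ((W.apOfModel ℓ : ℤ) : θ.range) from Subtype.ext (by rw [SubringClass.coe_intCast]; exact hθ ℓ hℓ hlN hlb hgood),
      map_intCast]
  exact ⟨g, hg, fun q hq hgood hqN => qCoeff_eq_of_good hΔ hN' hg hagree hq hgood hqN⟩

end FLTAgent.ModLift
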