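import Fermat.Agent.ModLift.WPoint.Interface
import Fermat.Agent.LevelMatch.Unipotent
import Fermat.Agent.Lowering.P1.Primes.Frobenius

/-!
# The representation on the Tate module: determinant, reduction modulo `p`, good primes
-/

set_option autoImplicit false
set_option linter.style.haveILetI false

noncomputable section

open scoped Classical WeierstrassCurve.Affine Pointwise
open WeierstrassCurve WeierstrassCurve.Affine IsLocalRing Matrix

namespace FLTAgent.ModLift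

local notation "LL" => AlgebraicClosure ℚ
local notation "GG" => (AlgebraicClosure ℚ ≃ₐ[ℚ] AlgebraicClosure ℚ)

open FLTAgent.LocalEC FLTAgent.FrobTrace FLTAgent.LevelMatch

variable {W : WeierstrassCurve ℤ} {p : ℕ} [hp : Fact p.Prime]
  (B : TateBasis (barCurve W).Point p)

/-- The representation on the Tate module, in units. -/
def tateGL : GG →* GL (Fin 2) ℤ_[p] :=
  (B.tateRep : GG →* Deformation.M2 ℤ_[p]).toHomUnits

theorem tateGL_apply (σ : GG) :
    ((tateGL B σ : GL (Fin 2) ℤ_[p]) : Deformation.M2 ℤ_[p]) = B.tateRep σ := rfl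

theorem span_pow_eq (n : ℕ) :
    Ideal.span {(p : ℤ_[p]) ^ n} = IsLocalRing.maximalIdeal ℤ_[p] ^ n := by
  rw [maximalIdeal_pow_eq, Nat.cast_pow]

/-- The first layer as vectors of the residual representation. -/
def torsVec (hΔ : W.Δ ≠ 0) (u : Fin 2 → ℤ_[p]) : (resW W hΔ p).V :=
  (⟨B.pt 1 u, Torsion.mem_torsionBy_iff_nsmul.mpr (by
      have := B.nsmul_pt 1 u; rwa [pow_one] at this)⟩ :
    Submodule.torsionBy ℤ ((W.map (Int.castRingHom ℚ))⁄(AlgebraicClosure ℚ)).Point p)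

theorem torsVec_add (hΔ : W.Δ ≠ 0) (u v : Fin 2 → ℤ_[p]) :
    torsVec B hΔ (u + v) = torsVec B hΔ u + torsVec B hΔ v :=
  Subtype.ext (map_add (B.pt 1) u v)

theorem torsVec_smul (hΔ : W.Δ ≠ 0) (x : ℤ_[p]) (u : Fin 2 → ℤ_[p]) :
    torsVec B hΔ (x • u) = PadicInt.toZMod x • torsVec B hΔ u := by
  obtain ⟨a, ha⟩ : ∃ a : ℤ, (a : ZMod p) = PadicInt.toZMod x := ZMod.intCast_surjective _
  rw [← ha]
  refine (Subtype.ext ?_).trans (Int.cast_smul_eq_zsmul (ZMod p) a (torsVec B hΔ u)).symm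
  refine B.pt_smul 1 ?_ u
  rw [pow_one, ← Ideal.mem_span_singleton, ← PadicInt.maximalIdeal_eq_span_p,
    ← PadicInt.ker_toZMod, RingHom.mem_ker, map_sub, map_intCast, ha, sub_self]

theorem torsVec_eq_zero_iff (hΔ : W.Δ ≠ 0) (u : Fin 2 → ℤ_[p]) :
    torsVec B hΔ u = 0 ↔ ∀ i, PadicInt.toZMod (u i) = 0 := by
  constructor
  · intro h i
    have h1 := B.pt_eq_zero_iff.mp (congrArg Subtype.val h) i
    rw [pow_one, ← Ideal.mem_span_singleton, ← PadicInt.maximalIdeal_eq_span_p,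
      ← PadicInt.ker_toZMod, RingHom.mem_ker] at h1
    exact h1
  · intro h
    refine Subtype.ext (B.pt_eq_zero_iff.mpr fun i => ?_)
    rw [pow_one, ← Ideal.mem_span_singleton, ← PadicInt.maximalIdeal_eq_span_p,
      ← PadicInt.ker_toZMod, RingHom.mem_ker]
    exact h i

theorem rho_torsVec (hΔ : W.Δ ≠ 0) (σ : GG) (u : Fin 2 → ℤ_[p]) :
    (resW W hΔ p).ρ σ (torsVec B hΔ u) = torsVec B hΔ (B.tateRep σ *ᵥ u) :=
  Subtype.ext (B.smul_pt σ 1 u)

/-- The residual representation is the reduction of the Tate module. -/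
theorem exists_residual (hΔ : W.Δ ≠ 0) :
    ∃ b : Module.Basis (Fin 2) (ZMod p) (resW W hΔ p).V, ∀ σ : GG,
      (B.tateRep σ : Deformation.M2 ℤ_[p]).map PadicInt.toZMod =
        LinearMap.toMatrix b b ((resW W hΔ p).ρ σ) := by
  let e : Fin 2 → Fin 2 → ℤ_[p] := fun i => Pi.single i 1
  have hdec : ∀ u : Fin 2 → ℤ_[p], torsVec B hΔ u =
      PadicInt.toZMod (u 0) • torsVec B hΔ (e 0) + PadicInt.toZMod (u 1) • torsVec B hΔ (e 1) := by
    intro u
    rw [← torsVec_smul, ← torsVec_smul, ← torsVec_add]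
    congr 1
    funext i; fin_cases i <;> simp [e]
  have hli : LinearIndependent (ZMod p) ![torsVec B hΔ (e 0), torsVec B hΔ (e 1)] := by
    rw [LinearIndependent.pair_iff]
    intro s t hst
    obtain ⟨s', rfl⟩ := ZMod.intCast_surjective s
    obtain ⟨t', rfl⟩ := ZMod.intCast_surjective t
    rw [← map_intCast (PadicInt.toZMod (p := p)) s', ← map_intCast (PadicInt.toZMod (p := p)) t',
      ← torsVec_smul, ← torsVec_smul, ← torsVec_add, torsVec_eq_zero_iff] at hst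
    have h0 := hst 0
    have h1 := hst 1
    simp [e] at h0 h1
    exact ⟨h0, h1⟩
  let b : Module.Basis (Fin 2) (ZMod p) (resW W hΔ p).V :=
    basisOfLinearIndependentOfCardEqFinrank hli (by rw [(resW W hΔ p).finrank_eq]; rfl)
  have hb : ∀ i, b i = torsVec B hΔ (e i) := fun i => by
    rw [coe_basisOfLinearIndependentOfCardEqFinrank]; fin_cases i <;> rfl
  refine ⟨b, fun σ => ?_⟩
  ext i j
  rw [Matrix.map_apply, LinearMap.toMatrix_apply, hb, rho_torsVec, hdec]
  simp only [e, ← hb, map_add, map_smul, Matrix.mulVec_single_one, Matrix.col_apply,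
    Module.Basis.repr_self]
  fin_cases i <;> simp

/-- The bad primes and `p`. -/
def badSet (W : WeierstrassCurve ℤ) (p : ℕ) : Finset ℕ := insert p W.Δ.natAbs.primeFactors

section Global

variable (hΔ : W.Δ ≠ 0) (hp2 : p ≠ 2)
include hΔ

omit hp in
theorem good_of_notMem {ℓ : ℕ} (hℓ : ℓ.Prime) (h : ℓ ∉ badSet W p) :
    W.IsGoodPrimeFor ℓ ∧ ℓ ≠ p := by
  rw [badSet, Finset.mem_insert, not_or] at h
  exact ⟨fun hd => h.2 (Nat.mem_primeFactors.mpr
    ⟨hℓ, Int.natCast_dvd.mp hd, Int.natAbs_ne_zero.mpr hΔ⟩), h.1⟩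

include hp2

theorem exists_not_scalar : ∃ σ : GG, ¬ DetCyclo.IsScalarMat (B.tateRep σ) := by
  obtain ⟨b, hb⟩ := exists_residual B hΔ
  refine ⟨complexConjugation, fun hs => ?_⟩
  obtain ⟨h01, h10, h11⟩ := hs
  set R : Deformation.M2 ℤ_[p] := B.tateRep complexConjugation
  have hR : R * R = 1 := by
    rw [← map_mul, complexConjugation_mul_self, map_one]
  have e00 := congrFun (congrFun hR 0) 0
  simp [Matrix.mul_apply, Fin.sum_univ_two, h01, h10] at e00
  have hc1 : complexConjugation ≠ 1 := fun h1 => by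
    obtain ⟨i, hi⟩ := IsAlgClosed.exists_eq_mul_self (-1 : LL)
    have h2 := complexEmbedding_complexConjugation i
    rw [h1, AlgEquiv.one_apply] at h2
    obtain ⟨x, hx⟩ := Complex.conj_eq_iff_real.mp h2.symm
    have h3 := congrArg complexEmbedding hi
    rw [map_mul, map_neg, map_one, hx] at h3
    have h4 : ((x * x : ℝ) : ℂ) = ((-1 : ℝ) : ℂ) := by push_cast; exact h3.symm
    linarith [Complex.ofReal_inj.mp h4, mul_self_nonneg x]
  have hd := det_resW_involution hΔ hp2 complexConjugation_mul_self hc1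
  rw [← LinearMap.det_toMatrix b, ← hb] at hd
  rw [Matrix.det_fin_two] at hd
  simp only [Matrix.map_apply] at hd
  change PadicInt.toZMod (R 0 0) * PadicInt.toZMod (R 1 1) -
    PadicInt.toZMod (R 0 1) * PadicInt.toZMod (R 1 0) = -1 at hd
  rw [h01, h10, ← h11, map_zero, mul_zero, sub_zero, ← map_mul, e00, map_one] at hd
  have h2 : ((2 : ℕ) : ZMod p) = 0 := by
    rw [Nat.cast_ofNat]; linear_combination hd
  rw [ZMod.natCast_eq_zero_iff] at h2
  exact hp2 ((Nat.prime_dvd_prime_iff_eq hp.out Nat.prime_two).mp h2)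

omit hp2 in
theorem tateRep_quad : ∀ ℓ : ℕ, ℓ.Prime → ℓ ∉ badSet W p → ∀ V : ValuationSubring LL,
    V.LiesOverPrime ℓ → ∀ τ : GG, V.IsFrobeniusAt τ ℓ →
      B.tateRep τ * B.tateRep τ - ((W.apOfModel ℓ : ℤ) : ℤ_[p]) • B.tateRep τ +
        (ℓ : ℤ_[p]) • 1 = 0 := by
  intro ℓ hℓ hℓS V hV τ hτ
  haveI : Fact ℓ.Prime := ⟨hℓ⟩
  obtain ⟨hg, hne⟩ := good_of_notMem hΔ hℓ hℓS
  exact tate_quad B hg hne hV hτ

omit hΔ hp2 in
theorem padicInt_p_mem : (p : ℤ_[p]) ∈ IsLocalRing.maximalIdeal ℤ_[p] := by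
  rw [PadicInt.maximalIdeal_eq_span_p]; exact Ideal.mem_span_singleton_self _

theorem det_tateRep {n : ℕ} {σ : GG} {c : ℕ} (hc : DetCyclo.CycloExponent p n σ c) :
    Matrix.det (B.tateRep σ) - (c : ℤ_[p]) ∈ Ideal.span {(p : ℤ_[p]) ^ n} := by
  rw [span_pow_eq]
  exact DetCyclo.det_cyclo p padicInt_p_mem B.tateRep (matCts_tateRep hΔ B) (badSet W p)
    (Finset.mem_insert_self _ _) (fun ℓ => ((W.apOfModel ℓ : ℤ) : ℤ_[p])) (tateRep_quad B hΔ)
    (exists_not_scalar B hΔ hp2) σ n c hc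

theorem det_eq_of_cyclo {σ : GG} {c : ℕ} (hc : ∀ n, DetCyclo.CycloExponent p n σ c) :
    Matrix.det (B.tateRep σ) = (c : ℤ_[p]) :=
  padic_eq_of_forall_dvd fun n => by
    rw [Nat.cast_pow, ← Ideal.mem_span_singleton]
    exact det_tateRep B hΔ hp2 (hc n)

theorem det_inertia {q : ℕ} (hq : q.Prime) (hqp : q ≠ p) {V : ValuationSubring LL}
    (hV : V.LiesOverPrime q) {σ : GG} (hσ : σ ∈ V.inertiaSubgroupIn ℚ) :
    Matrix.det (B.tateRep σ) = 1 := by
  rw [det_eq_of_cyclo B hΔ hp2 (fun n => inertia_cycloExponent hq hqp hV hσ n), Nat.cast_one]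

theorem det_frobenius {q : ℕ} (hq : q.Prime) (hqp : q ≠ p) {V : ValuationSubring LL}
    (hV : V.LiesOverPrime q) {φ : GG} (hφ : V.IsFrobeniusAt φ q) :
    Matrix.det (B.tateRep φ) = (q : ℤ_[p]) :=
  det_eq_of_cyclo B hΔ hp2 fun n => DetCyclo.cycloExponent_frobenius hq hqp hV hφ n

theorem trace_good {q : ℕ} (hq : q.Prime) (hqp : q ≠ p) (hgood : W.IsGoodPrimeFor q)
    {V : ValuationSubring LL} (hV : V.LiesOverPrime q) {φ : GG} (hφ : V.IsFrobeniusAt φ q) :
    Matrix.trace (B.tateRep φ) = (W.apOfModel q : ℤ_[p]) := by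
  have hS : q ∉ badSet W p := by
    rw [badSet, Finset.mem_insert, not_or, Nat.mem_primeFactors]
    exact ⟨hqp, fun h => hgood (Int.natCast_dvd.mpr h.2.1)⟩
  exact (DetCyclo.trace_det_frobenius p padicInt_p_mem B.tateRep (matCts_tateRep hΔ B)
    (badSet W p) (Finset.mem_insert_self _ _) (fun ℓ => ((W.apOfModel ℓ : ℤ) : ℤ_[p]))
    (tateRep_quad B hΔ) (exists_not_scalar B hΔ hp2) hq hS hV hφ).1

omit hΔ hp2

theorem inertia_good {q : ℕ} (hq : q.Prime) (hqp : q ≠ p) (hgood : W.IsGoodPrimeFor q)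
    {V : ValuationSubring LL} (hV : V.LiesOverPrime q) {σ : GG}
    (hσ : σ ∈ V.inertiaSubgroupIn ℚ) : B.tateRep σ = 1 :=
  B.matrix_ext fun n u => by
    rw [← B.smul_pt, Matrix.one_mulVec]
    exact inertia_smul_of_inE0 hσ (val_natCast_eq_one hV hq
      fun h => hqp ((Nat.prime_dvd_prime_iff_eq hq hp.out).mp (hq.dvd_of_dvd_pow h)))
      (B.nsmul_pt n u) (inE0_of_val_disc _ (by
        rw [Δ_barCurve]; exact val_intCast_eq_one hV hq hgood) _)

end Global

end FLTAgent.ModLift
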